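import Fermat.Agent.RiemannMangoldt.Main
import Mathlib.Analysis.Complex.RemovableSingularity

/-!
# Residues on a rectangle `[a, b] × [-T, T]`
-/

set_option autoImplicit false

noncomputable section

namespace FA.ExplicitFormula

open Complex Filter Topology MeasureTheory Set

/-- The integral round `[a, b] × [-T, T]`. -/
def boxInt (F : ℂ → ℂ) (a b T : ℝ) : ℂ :=
  (∫ u in a..b, F ((u : ℂ) + ((-T : ℝ) : ℂ) * I)) - (∫ u in a..b, F ((u : ℂ) + (T : ℂ) * I)) +
    I * (∫ y in (-T)..T, F ((b : ℂ) + (y : ℂ) * I)) -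
    I * (∫ y in (-T)..T, F ((a : ℂ) + (y : ℂ) * I))

/-- The boundary of the rectangle. -/
def boxEdges (a b T : ℝ) : Set ℂ :=
  {s | s.re ∈ uIcc a b ∧ s.im ∈ uIcc (-T) T ∧ (s.im = -T ∨ s.im = T ∨ s.re = a ∨ s.re = b)}

variable {F G : ℂ → ℂ} {a b T : ℝ}

theorem edge_bottom {u : ℝ} (hu : u ∈ uIcc a b) :
    (u : ℂ) + ((-T : ℝ) : ℂ) * I ∈ boxEdges a b T := by
  simp [boxEdges, hu]

theorem edge_top {u : ℝ} (hu : u ∈ uIcc a b) : (u : ℂ) + (T : ℂ) * I ∈ boxEdges a b T := by
  simp [boxEdges, hu]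

theorem edge_left {y : ℝ} (hy : y ∈ uIcc (-T) T) : (a : ℂ) + (y : ℂ) * I ∈ boxEdges a b T := by
  simp [boxEdges, hy]

theorem edge_right {y : ℝ} (hy : y ∈ uIcc (-T) T) : (b : ℂ) + (y : ℂ) * I ∈ boxEdges a b T := by
  simp [boxEdges, hy]

theorem boxInt_congr (h : EqOn F G (boxEdges a b T)) : boxInt F a b T = boxInt G a b T := by
  unfold boxInt
  rw [intervalIntegral.integral_congr (g := fun u => G ((u : ℂ) + ((-T : ℝ) : ℂ) * I))
      fun u hu => h (edge_bottom hu),
    intervalIntegral.integral_congr (g := fun u => G ((u : ℂ) + (T : ℂ) * I))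
      fun u hu => h (edge_top hu),
    intervalIntegral.integral_congr (g := fun y => G ((b : ℂ) + (y : ℂ) * I))
      fun y hy => h (edge_right hy),
    intervalIntegral.integral_congr (g := fun y => G ((a : ℂ) + (y : ℂ) * I))
      fun y hy => h (edge_left hy)]

theorem intervalIntegrable_edges (hF : ∀ s ∈ boxEdges a b T, ContinuousAt F s) :
    IntervalIntegrable (fun u : ℝ => F ((u : ℂ) + ((-T : ℝ) : ℂ) * I)) volume a b ∧
      IntervalIntegrable (fun u : ℝ => F ((u : ℂ) + (T : ℂ) * I)) volume a b ∧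
      IntervalIntegrable (fun y : ℝ => F ((b : ℂ) + (y : ℂ) * I)) volume (-T) T ∧
      IntervalIntegrable (fun y : ℝ => F ((a : ℂ) + (y : ℂ) * I)) volume (-T) T :=
  ⟨ContinuousOn.intervalIntegrable fun u hu => (ContinuousAt.comp' (g := F)
      (f := fun v : ℝ => (v : ℂ) + ((-T : ℝ) : ℂ) * I) (hF _ (edge_bottom hu))
        (by fun_prop)).continuousWithinAt,
    ContinuousOn.intervalIntegrable fun u hu => (ContinuousAt.comp' (g := F)
      (f := fun v : ℝ => (v : ℂ) + (T : ℂ) * I) (hF _ (edge_top hu))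
        (by fun_prop)).continuousWithinAt,
    ContinuousOn.intervalIntegrable fun y hy => (ContinuousAt.comp' (g := F)
      (f := fun v : ℝ => (b : ℂ) + (v : ℂ) * I) (hF _ (edge_right hy))
        (by fun_prop)).continuousWithinAt,
    ContinuousOn.intervalIntegrable fun y hy => (ContinuousAt.comp' (g := F)
      (f := fun v : ℝ => (a : ℂ) + (v : ℂ) * I) (hF _ (edge_left hy))
        (by fun_prop)).continuousWithinAt⟩

theorem boxInt_add (hF : ∀ s ∈ boxEdges a b T, ContinuousAt F s)
    (hG : ∀ s ∈ boxEdges a b T, ContinuousAt G s) :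
    boxInt (fun s => F s + G s) a b T = boxInt F a b T + boxInt G a b T := by
  obtain ⟨a1, a2, a3, a4⟩ := intervalIntegrable_edges hF
  obtain ⟨b1, b2, b3, b4⟩ := intervalIntegrable_edges hG
  simp only [boxInt, intervalIntegral.integral_add a1 b1, intervalIntegral.integral_add a2 b2,
    intervalIntegral.integral_add a3 b3, intervalIntegral.integral_add a4 b4]
  ring

theorem boxInt_const_mul (c : ℂ) : boxInt (fun s => c * F s) a b T = c * boxInt F a b T := by
  simp only [boxInt, intervalIntegral.integral_const_mul]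
  ring

/-- The theorem of Cauchy. -/
theorem boxInt_eq_zero (hab : a ≤ b) (hT : 0 ≤ T)
    (hF : ∀ s : ℂ, s.re ∈ Icc a b → s.im ∈ Icc (-T) T → DifferentiableAt ℂ F s) :
    boxInt F a b T = 0 := by
  have h := Complex.integral_boundary_rect_eq_zero_of_differentiableOn F
    ((a : ℂ) + ((-T : ℝ) : ℂ) * I) ((b : ℂ) + (T : ℂ) * I) (fun s hs => by
      rw [Complex.mem_reProdIm] at hs
      simp only [add_re, ofReal_re, mul_re, I_re, mul_zero, ofReal_im, I_im, mul_one, sub_self,
        add_zero, add_im, mul_im, zero_add, uIcc_of_le hab,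
        uIcc_of_le (show -T ≤ T by linarith)] at hs
      exact (hF s hs.1 hs.2).differentiableWithinAt)
  simp only [add_re, ofReal_re, mul_re, I_re, mul_zero, ofReal_im, I_im, mul_one, sub_self,
    add_zero, add_im, mul_im, zero_add, smul_eq_mul] at h
  rw [boxInt]
  linear_combination h

theorem integral_inv_line_right {w : ℂ} (hw : 0 < w.re) (c d : ℝ) :
    I * (∫ y in c..d, (w + (y : ℂ) * I)⁻¹) =
      Complex.log (w + (d : ℂ) * I) - Complex.log (w + (c : ℂ) * I) := by
  rw [← intervalIntegral.integral_const_mul]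
  refine intervalIntegral.integral_eq_sub_of_hasDerivAt
    (f := fun v : ℝ => Complex.log (w + (v : ℂ) * I)) (fun y _ => ?_) ?_
  · have hd : HasDerivAt (fun v : ℝ => w + (v : ℂ) * I) I y := by
      simpa using (((hasDerivAt_id' (y : ℂ)).mul_const I).const_add w).comp_ofReal
    exact (hd.clog_real (Or.inl (by simpa using hw))).congr_deriv (div_eq_mul_inv _ _)
  · exact (continuousOn_const.mul (ContinuousOn.inv₀ (by fun_prop) fun y _ h => hw.ne' (by
      simpa using congrArg Complex.re h))).intervalIntegrable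

theorem integral_inv_line_left {w : ℂ} (hw : w.re < 0) (c d : ℝ) :
    I * (∫ y in c..d, (w + (y : ℂ) * I)⁻¹) =
      Complex.log (-(w + (d : ℂ) * I)) - Complex.log (-(w + (c : ℂ) * I)) := by
  rw [← intervalIntegral.integral_const_mul]
  refine intervalIntegral.integral_eq_sub_of_hasDerivAt
    (f := fun v : ℝ => Complex.log (-(w + (v : ℂ) * I))) (fun y _ => ?_) ?_
  · have hd : HasDerivAt (fun v : ℝ => w + (v : ℂ) * I) I y := by
      simpa using (((hasDerivAt_id' (y : ℂ)).mul_const I).const_add w).comp_ofReal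
    exact (hd.neg.clog_real (Or.inl (by simpa using hw))).congr_deriv
      (by rw [Pi.neg_apply, neg_div_neg_eq, div_eq_mul_inv])
  · exact (continuousOn_const.mul (ContinuousOn.inv₀ (by fun_prop) fun y _ h => hw.ne (by
      simpa using congrArg Complex.re h))).intervalIntegrable

theorem log_neg_of_im_pos {A : ℂ} (hA : 0 < A.im) :
    Complex.log (-A) = Complex.log A - (Real.pi : ℂ) * I := by
  apply Complex.ext
  · simp [Complex.log_re]
  · simp [Complex.log_im, Complex.arg_neg_eq_arg_sub_pi_of_im_pos hA]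

theorem log_neg_of_im_neg {A : ℂ} (hA : A.im < 0) :
    Complex.log (-A) = Complex.log A + (Real.pi : ℂ) * I := by
  apply Complex.ext
  · simp [Complex.log_re]
  · simp [Complex.log_im, Complex.arg_neg_eq_arg_add_pi_of_im_neg hA]

/-- The winding number. -/
theorem boxInt_inv {ρ : ℂ} (ha : a < ρ.re) (hb : ρ.re < b) (hi : |ρ.im| < T) :
    boxInt (fun s => (s - ρ)⁻¹) a b T = 2 * Real.pi * I := by
  obtain ⟨h1, h2⟩ := abs_lt.1 hi
  have e : ∀ u v : ℂ, u + v - ρ = u + (v - ρ) := fun u v => by ring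
  have e' : ∀ u v : ℂ, u + v - ρ = u - ρ + v := fun u v => by ring
  have eh : ∀ t : ℝ, t ≠ ρ.im → (∫ u in a..b, ((u : ℂ) + (t : ℂ) * I - ρ)⁻¹) =
      Complex.log ((b : ℂ) + ((t : ℂ) * I - ρ)) - Complex.log ((a : ℂ) + ((t : ℂ) * I - ρ)) :=
    fun t ht => by
      simp only [e]
      exact FA.RiemannMangoldt.integral_inv_horizontal (by simpa [sub_eq_zero] using ht) a b
  have er := integral_inv_line_right (w := (b : ℂ) - ρ) (by simpa using hb) (-T) T
  have el := integral_inv_line_left (w := (a : ℂ) - ρ) (by simpa using ha) (-T) T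
  rw [boxInt, eh _ (by linarith), eh _ (by linarith)]
  simp only [e', er, el]
  simp only [show ∀ u v : ℂ, u + (v - ρ) = u - ρ + v from fun u v => by ring]
  rw [log_neg_of_im_pos (A := (a : ℂ) - ρ + (T : ℂ) * I) (by simp; linarith),
    log_neg_of_im_neg (A := (a : ℂ) - ρ + ((-T : ℝ) : ℂ) * I) (by simp; linarith)]
  ring

/-- A pole outside contributes nothing. -/
theorem boxInt_inv_outside (hab : a ≤ b) (hT : 0 ≤ T) {ρ : ℂ}
    (hρ : T < |ρ.im|) : boxInt (fun s => (s - ρ)⁻¹) a b T = 0 :=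
  boxInt_eq_zero hab hT fun s _ hs => ((differentiableAt_id.sub_const ρ).inv
    (sub_ne_zero.2 fun h => by
    rw [id_eq] at h
    rw [← h] at hρ
    linarith [abs_le.2 (mem_Icc.1 hs)]))

theorem interior_not_edge {ρ : ℂ} (ha : a < ρ.re) (hb : ρ.re < b) (hi : |ρ.im| ≠ T)
    (hT : 0 ≤ T) {s : ℂ} (hs : s ∈ boxEdges a b T) : s ≠ ρ := by
  rintro rfl
  rcases hs.2.2 with h | h | h | h
  · exact hi (by rw [h, abs_neg, abs_of_nonneg hT])
  · exact hi (by rw [h, abs_of_nonneg hT])
  · linarith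
  · linarith

/-- **The residue of a simple pole.** -/
theorem boxInt_residue {φ : ℂ → ℂ} {U : Set ℂ} (hU : IsOpen U) (hφ : DifferentiableOn ℂ φ U)
    (hbox : ∀ s : ℂ, s.re ∈ Icc a b → s.im ∈ Icc (-T) T → s ∈ U) (hT : 0 ≤ T) {ρ : ℂ}
    (ha : a < ρ.re) (hb : ρ.re < b) (hi : |ρ.im| ≠ T) :
    boxInt (fun s => φ s / (s - ρ)) a b T =
      if |ρ.im| < T then 2 * Real.pi * I * φ ρ else 0 := by
  have hab : a ≤ b := by linarith
  have hedge : ∀ s ∈ boxEdges a b T, s ∈ U := fun s hs => by
    obtain ⟨h1, h2, -⟩ := hs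
    rw [uIcc_of_le hab] at h1
    rw [uIcc_of_le (by linarith)] at h2
    exact hbox s h1 h2
  split_ifs with hin
  · have hρU : ρ ∈ U := hbox ρ ⟨ha.le, hb.le⟩ (abs_le.1 hin.le)
    have hd : DifferentiableOn ℂ (dslope φ ρ) U :=
      (differentiableOn_dslope (hU.mem_nhds hρU)).2 hφ
    have hds : ∀ s ∈ U, DifferentiableAt ℂ (dslope φ ρ) s := fun s hs =>
      (hd s hs).differentiableAt (hU.mem_nhds hs)
    rw [boxInt_congr (G := fun s => dslope φ ρ s + φ ρ * (s - ρ)⁻¹) fun s hs => ?_,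
      boxInt_add (G := fun s => φ ρ * (s - ρ)⁻¹)
        (fun s hs => (hds s (hedge s hs)).continuousAt) (fun s hs =>
        continuousAt_const.mul ((continuousAt_id.sub continuousAt_const).inv₀
          (sub_ne_zero.2 (interior_not_edge ha hb hi hT hs)))),
      boxInt_eq_zero hab hT fun s h1 h2 => hds s (hbox s h1 h2), zero_add, boxInt_const_mul,
      boxInt_inv ha hb hin]
    · ring
    · have hne := interior_not_edge ha hb hi hT hs
      have h0 := sub_ne_zero.2 hne
      simp only [dslope_of_ne _ hne, slope, vsub_eq_sub, smul_eq_mul]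
      field_simp
      ring
  · refine boxInt_eq_zero hab hT fun s h1 h2 => ((hφ s (hbox s h1 h2)).differentiableAt
      (hU.mem_nhds (hbox s h1 h2))).div (differentiableAt_id.sub_const ρ) ?_
    refine sub_ne_zero.2 fun h => hin ?_
    subst h
    exact lt_of_le_of_ne (abs_le.2 h2) hi

end FA.ExplicitFormula

end
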