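import Fermat.Agent.ExplicitFormula.Contour
import Fermat.Agent.VonKoch.PrimeCount
import Mathlib.NumberTheory.Bertrand

/-!
# The sharp bounds of von Koch

If all zeros have `re ρ ≤ β` then `ψ x - x` is `O (x ^ β log² x)`, `π x - li x` is
`O (x ^ β log x)`, and `(x, x + C x ^ β log² x]` contains a prime.
-/

set_option autoImplicit false

noncomputable section

namespace FA.ExplicitFormula

open Complex MeasureTheory FA.RiemannMangoldt FA.ZeroFree
open scoped Real Chebyshev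

variable {β : ℝ}

theorem rpow_two_mul_le {z β : ℝ} (hz : 0 ≤ z) (hβ1 : β ≤ 1) : (2 * z) ^ β ≤ 2 * z ^ β := by
  rw [Real.mul_rpow two_pos.le hz]
  exact mul_le_mul_of_nonneg_right (Real.rpow_le_self_of_one_le one_le_two hβ1)
    (Real.rpow_nonneg hz _)

/-- The sum over the zeros at `z + 1` minus that at `z`. -/
theorem exists_zero_sum_diff (hβ1 : β ≤ 1)
    (H : ∀ ρ : ℂ, xiFn ρ = 0 → ρ.re ≤ β) :
    ∃ C, 0 ≤ C ∧ ∀ z : ℝ, 1 ≤ z →
      ‖(∑' ρ, zeroTerm (z + 1) ρ) - ∑' ρ, zeroTerm z ρ‖ ≤ C * (z ^ β * ell z ^ 2) := by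
  obtain ⟨c, hc, hinv⟩ := exists_inv_im_le
  obtain ⟨C₁, h1, hhead⟩ := exists_sum_head
  obtain ⟨C₂, h2, htail⟩ := exists_sum_tail
  refine ⟨2 * c * C₁ + 8 * c ^ 2 * C₂, by positivity, fun z hz => ?_⟩
  have hz0 : 0 < z := by linarith
  have hzb : 0 ≤ z ^ β := Real.rpow_nonneg hz0.le _
  have s1 := (summable_norm_zeroTerm (x := z + 1) (by linarith)).of_norm
  have s2 := (summable_norm_zeroTerm hz0).of_norm
  rw [← Summable.tsum_sub s1 s2]
  refine (norm_tsum_le_tsum_norm (s1.sub s2).norm).trans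
    (Real.tsum_le_of_sum_le (fun ρ => norm_nonneg _) fun S => ?_)
  classical
  rw [← Finset.sum_filter_of_ne (p := fun ρ => xiFn ρ = 0) fun ρ _ hne => ?_,
    ← Finset.sum_filter_add_sum_filter_not (S.filter fun ρ => xiFn ρ = 0) fun ρ => |ρ.im| ≤ z]
  swap
  · by_contra h
    exact hne (by simp [zeroTerm_eq_zero _ h])
  have hN : ∀ ρ : ℂ, xiFn ρ = 0 →
      ‖(((z + 1 : ℝ) : ℂ)) ^ (ρ + 1) - (z : ℂ) ^ (ρ + 1)‖ ≤ ‖ρ + 1‖ * (2 * z ^ β) ∧
      ‖(((z + 1 : ℝ) : ℂ)) ^ (ρ + 1) - (z : ℂ) ^ (ρ + 1)‖ ≤ 8 * z ^ β * z := by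
    intro ρ hρ
    obtain ⟨h0, -⟩ := xiFn_zero_strip hρ
    have hpow : ∀ t : ℝ, 0 < t → t ≤ 2 * z → t ^ ρ.re ≤ 2 * z ^ β := fun t ht ht2 =>
      ((Real.rpow_le_rpow ht.le ht2 h0.le).trans
        (Real.rpow_le_rpow_of_exponent_le (by linarith) (H ρ hρ))).trans
        (rpow_two_mul_le hz0.le hβ1)
    constructor
    · have h := (convex_Icc z (z + 1)).norm_image_sub_le_of_norm_hasDerivWithin_le
        (f := fun t : ℝ => (t : ℂ) ^ (ρ + 1)) (f' := fun t : ℝ => (ρ + 1) * (t : ℂ) ^ (ρ + 1 - 1))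
        (C := ‖ρ + 1‖ * (2 * z ^ β)) (fun t ht => (hasDerivAt_ofReal_cpow_const
          (by linarith [ht.1]) (fun h => by
            have := congrArg Complex.re h; simp at this; linarith)).hasDerivWithinAt)
        (fun t ht => ?_) (Set.left_mem_Icc.2 (by linarith)) (Set.right_mem_Icc.2 (by linarith))
      · refine h.trans (le_of_eq ?_)
        rw [Real.norm_eq_abs, add_sub_cancel_left, abs_one, mul_one]
      · rw [add_sub_cancel_right, norm_mul, norm_cpow_eq_rpow_re_of_pos (by linarith [ht.1])]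
        exact mul_le_mul_of_nonneg_left (hpow t (by linarith [ht.1]) (by linarith [ht.2]))
          (norm_nonneg _)
    · have e : ∀ t : ℝ, 0 < t → t ≤ 2 * z → ‖(t : ℂ) ^ (ρ + 1)‖ ≤ 4 * z ^ β * z :=
        fun t ht ht2 => by
          rw [norm_cpow_eq_rpow_re_of_pos ht, add_re, one_re, Real.rpow_add_one ht.ne']
          exact (mul_le_mul (hpow t ht ht2) ht2 ht.le (by positivity)).trans (le_of_eq (by ring))
      refine (norm_sub_le _ _).trans ?_
      linarith [e (z + 1) (by linarith) (by linarith), e z hz0 (by linarith)]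
  have hterm : ∀ ρ : ℂ, xiFn ρ = 0 → ‖zeroTerm (z + 1) ρ - zeroTerm z ρ‖ =
      zeroWeight ρ * (‖(((z + 1 : ℝ) : ℂ)) ^ (ρ + 1) - (z : ℂ) ^ (ρ + 1)‖ /
        ‖ρ * (ρ + 1)‖) := fun ρ _ => by
    rw [zeroTerm, zeroTerm, ← mul_sub, ← sub_div, norm_mul, norm_div, Complex.norm_natCast]
  rw [add_mul]
  refine add_le_add ((Finset.sum_le_sum (g := fun ρ =>
    2 * c * z ^ β * (zeroWeight ρ * (1 / (1 + |ρ.im|)))) fun ρ hρ => ?_).trans ?_)
    ((Finset.sum_le_sum (g := fun ρ =>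
      8 * c ^ 2 * z ^ β * z * (zeroWeight ρ * (1 / (1 + |ρ.im|) ^ 2))) fun ρ hρ => ?_).trans ?_)
  · simp only [Finset.mem_filter] at hρ
    have hρ0 := hρ.1.2
    obtain ⟨hn, -⟩ := hN ρ hρ0
    have hi : 0 < |ρ.im| := abs_pos.2 (im_ne_zero_of_zero hρ0)
    have hn0 : 0 < ‖ρ‖ := hi.trans_le (abs_im_le_norm ρ)
    have hn1 : 0 < ‖ρ + 1‖ := hi.trans_le (by simpa using abs_im_le_norm (ρ + 1))
    rw [hterm ρ hρ0, norm_mul]
    calc (zeroWeight ρ : ℝ) * (‖((z + 1 : ℝ) : ℂ) ^ (ρ + 1) - (z : ℂ) ^ (ρ + 1)‖ /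
          (‖ρ‖ * ‖ρ + 1‖))
        ≤ zeroWeight ρ * (‖ρ + 1‖ * (2 * z ^ β) / (‖ρ‖ * ‖ρ + 1‖)) := by gcongr
      _ = zeroWeight ρ * (2 * z ^ β * (1 / ‖ρ‖)) := by field_simp
      _ ≤ zeroWeight ρ * (2 * z ^ β * (c * (1 / (1 + |ρ.im|)))) := by
          gcongr
          exact (one_div_le_one_div_of_le hi (abs_im_le_norm ρ)).trans (hinv ρ hρ0)
      _ = _ := by ring
  · rw [← Finset.mul_sum]
    refine (mul_le_mul_of_nonneg_left (hhead z _ hz0.le fun ρ hρ => ?_) (by positivity)).trans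
      (le_of_eq (by ring))
    simp only [Finset.mem_filter] at hρ
    exact ⟨hρ.1.2, hρ.2⟩
  · simp only [Finset.mem_filter, not_le] at hρ
    have hρ0 := hρ.1.2
    obtain ⟨-, hn⟩ := hN ρ hρ0
    rw [hterm ρ hρ0]
    have hden : 1 / ‖ρ * (ρ + 1)‖ ≤ c ^ 2 * (1 / (1 + |ρ.im|) ^ 2) := by
      refine (one_div_le_one_div_of_le ?_ (norm_mul_add_one_ge hρ0)).trans ?_
      · exact sq_pos_of_ne_zero (im_ne_zero_of_zero hρ0)
      · rw [← sq_abs, ← one_div_pow, ← one_div_pow, ← mul_pow]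
        exact pow_le_pow_left₀ (by positivity) (hinv ρ hρ0) 2
    rw [div_eq_mul_one_div]
    calc (zeroWeight ρ : ℝ) * (‖((z + 1 : ℝ) : ℂ) ^ (ρ + 1) - (z : ℂ) ^ (ρ + 1)‖ *
          (1 / ‖ρ * (ρ + 1)‖))
        ≤ zeroWeight ρ * (8 * z ^ β * z * (c ^ 2 * (1 / (1 + |ρ.im|) ^ 2))) := by gcongr
      _ = _ := by ring
  · rw [← Finset.mul_sum]
    refine (mul_le_mul_of_nonneg_left (htail z _ hz fun ρ hρ => ?_) (by positivity)).trans ?_
    · simp only [Finset.mem_filter, not_le] at hρ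
      exact ⟨hρ.1.2, hρ.2⟩
    · have hl : ell z ≤ ell z ^ 2 := le_self_pow₀ (by linarith [four_le_ell z]) two_ne_zero
      calc 8 * c ^ 2 * z ^ β * z * (C₂ * (ell z / z)) = 8 * c ^ 2 * C₂ * z ^ β * ell z := by
            field_simp
        _ ≤ 8 * c ^ 2 * C₂ * z ^ β * ell z ^ 2 :=
            mul_le_mul_of_nonneg_left hl (by positivity)
        _ = _ := by ring

/-- The first difference of `ψ₁`. -/
theorem exists_psiOne_diff (hβ : 1 / 2 ≤ β) (hβ1 : β ≤ 1)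
    (H : ∀ ρ : ℂ, xiFn ρ = 0 → ρ.re ≤ β) :
    ∃ C, 0 ≤ C ∧ ∀ z : ℝ, 1 ≤ z →
      |psiOne (z + 1) - psiOne z - z| ≤ C * (z ^ β * ell z ^ 2) := by
  obtain ⟨C, hC, hex⟩ := exists_explicit
  obtain ⟨D, hD, hdiff⟩ := exists_zero_sum_diff hβ1 H
  obtain ⟨q, hq⟩ : ∃ q, q = deriv riemannZeta 0 / riemannZeta 0 := ⟨_, rfl⟩
  simp only [← hq] at hex
  refine ⟨D + 1 + ‖q‖ + 3 * C, by positivity, fun z hz => ?_⟩
  have hz0 : 0 < z := by linarith
  obtain ⟨u, hu⟩ : ∃ u, u = z ^ β * ell z ^ 2 := ⟨_, rfl⟩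
  rw [← hu]
  have hpow : √z ≤ z ^ β := by
    rw [Real.sqrt_eq_rpow]
    exact Real.rpow_le_rpow_of_exponent_le hz hβ
  have hzu : z ^ β ≤ u := hu ▸ le_mul_of_one_le_right (Real.rpow_nonneg hz0.le _)
    (one_le_pow₀ (by linarith [four_le_ell z]))
  have hu1 : 1 ≤ u := le_trans (Real.one_le_rpow hz (by linarith)) hzu
  have hsq : √(z + 1) ≤ 2 * √z := by
    rw [Real.sqrt_le_left (by positivity), mul_pow, Real.sq_sqrt hz0.le]
    linarith
  obtain ⟨A, hA⟩ : ∃ A : ℂ, A = (psiOne (z + 1) : ℂ) - ((((z + 1 : ℝ) : ℂ)) ^ 2 / 2 -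
      ∑' ρ, zeroTerm (z + 1) ρ - ((z + 1 : ℝ) : ℂ) * q) := ⟨_, rfl⟩
  obtain ⟨B, hB⟩ : ∃ B : ℂ, B = (psiOne z : ℂ) - ((z : ℂ) ^ 2 / 2 -
      ∑' ρ, zeroTerm z ρ - (z : ℂ) * q) := ⟨_, rfl⟩
  have hA' : ‖A‖ ≤ C * √(z + 1) := hA ▸ hex (z + 1) (by linarith)
  have hB' : ‖B‖ ≤ C * √z := hB ▸ hex z hz0
  have e : ((psiOne (z + 1) - psiOne z - z : ℝ) : ℂ) = A - B + 1 / 2 -
      ((∑' ρ, zeroTerm (z + 1) ρ) - ∑' ρ, zeroTerm z ρ) - q := by
    rw [hA, hB]
    push_cast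
    ring
  rw [← Real.norm_eq_abs, ← Complex.norm_real, e]
  refine (norm_sub_le _ _).trans ?_
  refine (add_le_add ((norm_sub_le _ _).trans (add_le_add ((norm_add_le _ _).trans
    (add_le_add (norm_sub_le _ _) le_rfl)) le_rfl)) le_rfl).trans ?_
  have hh : ‖(1 / 2 : ℂ)‖ ≤ 1 := by norm_num
  have hd := hdiff z hz
  rw [← hu] at hd
  have h3 : C * √(z + 1) ≤ 2 * C * u := by
    calc C * √(z + 1) ≤ C * (2 * √z) := mul_le_mul_of_nonneg_left hsq hC
      _ ≤ C * (2 * u) := by gcongr; linarith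
      _ = _ := by ring
  have h4 : C * √z ≤ C * u := mul_le_mul_of_nonneg_left (by linarith) hC
  have h5 : ‖q‖ ≤ ‖q‖ * u := le_mul_of_one_le_right (norm_nonneg _) hu1
  linarith

theorem ell_le_log {x : ℝ} (hx : 2 ≤ x) : ell x ≤ 7 * Real.log x := by
  rw [show (7 : ℝ) * Real.log x = Real.log (x ^ 7) by rw [Real.log_pow]; norm_num, ell,
    abs_of_nonneg (by linarith)]
  refine Real.log_le_log (by linarith) ?_
  have h := pow_le_pow_left₀ two_pos.le hx 6
  nlinarith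

/-- **`ψ x = x + O (x ^ β log² x)`.** -/
theorem exists_psi_bound (hβ : 1 / 2 ≤ β) (hβ1 : β ≤ 1)
    (H : ∀ ρ : ℂ, xiFn ρ = 0 → ρ.re ≤ β) :
    ∃ C, 0 ≤ C ∧ ∀ x : ℝ, 2 ≤ x → |ψ x - x| ≤ C * (x ^ β * Real.log x ^ 2) := by
  obtain ⟨C, hC, h⟩ := exists_psiOne_diff hβ hβ1 H
  refine ⟨49 * (C + 1), by positivity, fun x hx => ?_⟩
  obtain ⟨u, hu⟩ : ∃ u, u = x ^ β * ell x ^ 2 := ⟨_, rfl⟩
  have hu1 : 1 ≤ u := hu ▸ one_le_mul_of_one_le_of_one_le
    (Real.one_le_rpow (by linarith) (by linarith)) (one_le_pow₀ (by linarith [four_le_ell x]))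
  have hle : (x - 1) ^ β * ell (x - 1) ^ 2 ≤ u := by
    rw [hu]
    refine mul_le_mul (Real.rpow_le_rpow (by linarith) (by linarith) (by linarith))
      (pow_le_pow_left₀ (ell_pos _).le (ell_mono ?_) 2) (by positivity)
      (Real.rpow_nonneg (by linarith) _)
    rw [abs_of_nonneg (by linarith), abs_of_nonneg (by linarith)]
    linarith
  have up := (psiOne_sub_bounds (x := x) (y := x + 1) (by linarith) (by linarith)).1
  have lo := (psiOne_sub_bounds (x := x - 1) (y := x) (by linarith) (by linarith)).2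
  rw [add_sub_cancel_left, one_mul] at up
  rw [sub_sub_cancel, one_mul] at lo
  have h1 := abs_le.1 (h x (by linarith))
  have h2 := abs_le.1 ((h (x - 1) (by linarith)).trans (mul_le_mul_of_nonneg_left hle hC))
  rw [sub_add_cancel] at h2
  rw [← hu] at h1
  have hkey : |ψ x - x| ≤ (C + 1) * u := abs_le.2 ⟨by linarith [h2.1], by linarith [h1.2]⟩
  refine hkey.trans ?_
  rw [mul_comm (49 : ℝ), mul_assoc]
  refine mul_le_mul_of_nonneg_left ?_ (by positivity)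
  rw [hu, mul_left_comm]
  refine mul_le_mul_of_nonneg_left ?_ (Real.rpow_nonneg (by linarith) _)
  calc ell x ^ 2 ≤ (7 * Real.log x) ^ 2 := pow_le_pow_left₀ (ell_pos _).le (ell_le_log hx) 2
    _ = _ := by ring

/-- `θ x = x + O (x ^ β log² x)`. -/
theorem exists_theta_bound (hβ : 1 / 2 ≤ β) (hβ1 : β ≤ 1)
    (H : ∀ ρ : ℂ, xiFn ρ = 0 → ρ.re ≤ β) :
    ∃ C, 0 ≤ C ∧ ∀ x : ℝ, 2 ≤ x → |θ x - x| ≤ C * (x ^ β * Real.log x ^ 2) := by
  obtain ⟨C, hC, h⟩ := exists_psi_bound hβ hβ1 H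
  have hl2 : 0 < Real.log 2 := Real.log_pos one_lt_two
  refine ⟨C + 2 / Real.log 2, by positivity, fun x hx => ?_⟩
  have h1 := Chebyshev.abs_psi_sub_theta_le_sqrt_mul_log (show 1 ≤ x by linarith)
  have hlx : Real.log 2 ≤ Real.log x := Real.log_le_log two_pos hx
  have hpow : √x ≤ x ^ β := by
    rw [Real.sqrt_eq_rpow]
    exact Real.rpow_le_rpow_of_exponent_le (by linarith) hβ
  have h2 : 2 * √x * Real.log x ≤ 2 / Real.log 2 * (x ^ β * Real.log x ^ 2) := by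
    calc 2 * √x * Real.log x ≤ 2 * x ^ β * Real.log x := by gcongr; linarith
      _ = 2 / Real.log 2 * (x ^ β * (Real.log 2 * Real.log x)) := by field_simp
      _ ≤ _ := by
          rw [sq]
          gcongr
          linarith
  have h3 := abs_sub_le (θ x) (ψ x) x
  rw [abs_sub_comm (θ x) (ψ x)] at h3
  linarith [h x hx]

/-- **`π x = li x + O (x ^ β log x)`.** -/
theorem exists_primeCount_bound (hβ : 1 / 2 ≤ β) (hβ1 : β ≤ 1)
    (H : ∀ ρ : ℂ, xiFn ρ = 0 → ρ.re ≤ β) :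
    ∃ C, 0 ≤ C ∧ ∀ x : ℝ, 2 ≤ x →
      |(Nat.primeCounting ⌊x⌋₊ : ℝ) - FA.VonKoch.liTwo x| ≤ C * (x ^ β * Real.log x) := by
  obtain ⟨C, hC, h⟩ := exists_theta_bound hβ hβ1 H
  have hl2 : 0 < Real.log 2 := Real.log_pos one_lt_two
  refine ⟨C + 2 * C / Real.log 2 + 2 / Real.log 2 ^ 2, by positivity, fun x hx => ?_⟩
  have hx0 : 0 < x := by linarith
  have hlx : Real.log 2 ≤ Real.log x := Real.log_le_log two_pos hx
  have hne : ∀ t ∈ Set.uIcc 2 x, t ≠ 0 ∧ Real.log t ≠ 0 := fun t ht => by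
    rw [Set.uIcc_of_le hx] at ht
    exact ⟨by linarith [ht.1], (Real.log_pos (by linarith [ht.1])).ne'⟩
  have i2 : IntervalIntegrable (fun t => 1 / Real.log t ^ 2) volume 2 x :=
    Chebyshev.intervalIntegrable_one_div_log_sq one_lt_two (by linarith)
  have hparts : FA.VonKoch.liTwo x = x / Real.log x - 2 / Real.log 2 +
      ∫ t in (2 : ℝ)..x, 1 / Real.log t ^ 2 := by
    have hd : ∀ t ∈ Set.uIcc 2 x, HasDerivAt (fun u => u / Real.log u)
        (1 / Real.log t - 1 / Real.log t ^ 2) t := fun t ht => by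
      obtain ⟨h1, h2⟩ := hne t ht
      refine ((hasDerivAt_id' t).div (Real.hasDerivAt_log h1) h2).congr_deriv ?_
      field_simp
    have h0 := intervalIntegral.integral_eq_sub_of_hasDerivAt hd
      ((FA.VonKoch.intervalIntegrable_inv_log hx).sub i2)
    rw [intervalIntegral.integral_sub (FA.VonKoch.intervalIntegrable_inv_log hx) i2] at h0
    unfold FA.VonKoch.liTwo
    linarith
  have i3 : IntervalIntegrable (fun t => θ t / (t * Real.log t ^ 2)) volume 2 x :=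
    (intervalIntegrable_iff_integrableOn_Icc_of_le hx).2
      (Chebyshev.integrableOn_theta_div_id_mul_log_sq x)
  have hint : |(∫ t in (2 : ℝ)..x, θ t / (t * Real.log t ^ 2)) -
      ∫ t in (2 : ℝ)..x, 1 / Real.log t ^ 2| ≤ 2 * C * x ^ β := by
    rw [← intervalIntegral.integral_sub i3 i2, ← Real.norm_eq_abs]
    refine (intervalIntegral.norm_integral_le_of_norm_le hx
      (Filter.Eventually.of_forall fun t ht => ?_)
      ((intervalIntegral.intervalIntegrable_rpow' (by linarith : -1 < β - 1)).const_mul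
        C)).trans ?_
    · have ht0 : 0 < t := by linarith [ht.1]
      have hl0 : 0 < Real.log t := Real.log_pos (by linarith [ht.1])
      have e1 : θ t / (t * Real.log t ^ 2) - 1 / Real.log t ^ 2 =
          (θ t - t) / (t * Real.log t ^ 2) := by field_simp
      rw [Real.norm_eq_abs, e1, abs_div, abs_of_pos (by positivity : 0 < t * Real.log t ^ 2),
        div_le_iff₀ (by positivity)]
      refine (h t ht.1.le).trans (le_of_eq ?_)
      rw [Real.rpow_sub_one ht0.ne']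
      field_simp
    · rw [intervalIntegral.integral_const_mul]
      refine (mul_le_mul_of_nonneg_left (FA.VonKoch.integral_rpow_le (by linarith)) hC).trans ?_
      rw [show 2 * C * x ^ β = C * (2 * x ^ β) by ring]
      refine mul_le_mul_of_nonneg_left ?_ hC
      rw [div_le_iff₀ (by linarith)]
      nlinarith [Real.rpow_nonneg hx0.le β]
  have hmain : |(θ x - x) / Real.log x| ≤ C * (x ^ β * Real.log x) := by
    rw [abs_div, abs_of_pos (by linarith : 0 < Real.log x), div_le_iff₀ (by linarith)]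
    exact (h x hx).trans (le_of_eq (by ring))
  have hone : Real.log 2 ≤ x ^ β * Real.log x :=
    hlx.trans (le_mul_of_one_le_left (by linarith) (Real.one_le_rpow (by linarith) (by linarith)))
  have hk : 2 / Real.log 2 ≤ 2 / Real.log 2 ^ 2 * (x ^ β * Real.log x) := by
    refine le_trans (le_of_eq ?_) (mul_le_mul_of_nonneg_left hone (by positivity))
    field_simp
  have hk2 : 2 * C * x ^ β ≤ 2 * C / Real.log 2 * (x ^ β * Real.log x) := by
    calc 2 * C * x ^ β = 2 * C / Real.log 2 * (x ^ β * Real.log 2) := by field_simp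
      _ ≤ _ := by gcongr
  have hk0 : 0 ≤ 2 / Real.log 2 := by positivity
  rw [Chebyshev.primeCounting_eq_theta_div_log_add_integral hx, hparts]
  rw [sub_div] at hmain
  rw [abs_le] at hint hmain ⊢
  constructor <;> linarith

/-- **A prime in `(x, x + C x ^ β log² x]`.** -/
theorem exists_prime_between (hβ : 1 / 2 ≤ β) (hβ1 : β ≤ 1)
    (H : ∀ ρ : ℂ, xiFn ρ = 0 → ρ.re ≤ β) :
    ∃ C, 0 < C ∧ ∀ x : ℝ, 2 ≤ x → ∃ p : ℕ, p.Prime ∧ x < p ∧
      (p : ℝ) ≤ x + C * (x ^ β * Real.log x ^ 2) := by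
  obtain ⟨K, hK, h⟩ := exists_theta_bound hβ hβ1 H
  refine ⟨10 * K + 1, by positivity, fun x hx => ?_⟩
  have hx0 : 0 < x := by linarith
  have hlx : 0 < Real.log x := Real.log_pos (by linarith)
  obtain ⟨u, hu⟩ : ∃ u, u = x ^ β * Real.log x ^ 2 := ⟨_, rfl⟩
  rw [← hu]
  have hu0 : 0 < u := hu ▸ by positivity
  rcases le_or_gt x ((10 * K + 1) * u) with hbig | hsmall
  · obtain ⟨p, hp, hp1, hp2⟩ := Nat.exists_prime_lt_and_le_two_mul ⌊x⌋₊
      (Nat.pos_iff_ne_zero.1 (Nat.floor_pos.2 (by linarith)))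
    refine ⟨p, hp, Nat.lt_of_floor_lt hp1, ?_⟩
    have : (p : ℝ) ≤ 2 * ⌊x⌋₊ := by exact_mod_cast hp2
    linarith [Nat.floor_le hx0.le]
  obtain ⟨y, hy⟩ : ∃ y, y = x + (10 * K + 1) * u := ⟨_, rfl⟩
  have hxy : x ≤ y := by rw [hy]; linarith [mul_pos (show 0 < 10 * K + 1 by linarith) hu0]
  have hy2 : y ≤ 2 * x := by linarith
  have hby : y ^ β * Real.log y ^ 2 ≤ 8 * u := by
    have h1 : y ^ β ≤ 2 * x ^ β := (Real.rpow_le_rpow (by linarith) hy2 (by linarith)).trans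
      (rpow_two_mul_le hx0.le hβ1)
    have h2 : Real.log y ≤ 2 * Real.log x := by
      rw [show 2 * Real.log x = Real.log (x ^ 2) by rw [Real.log_pow]; norm_num]
      exact Real.log_le_log (by linarith) (by nlinarith)
    refine (mul_le_mul h1 (pow_le_pow_left₀ (Real.log_nonneg (by linarith)) h2 2)
      (by positivity) (by positivity)).trans (le_of_eq ?_)
    rw [hu]
    ring
  have hθ : θ x < θ y := by
    have h1 := (abs_le.1 (h x hx)).2
    have h2 := (abs_le.1 ((h y (by linarith)).trans (mul_le_mul_of_nonneg_left hby hK))).1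
    rw [← hu] at h1
    nlinarith [mul_nonneg hK hu0.le]
  by_contra hno
  push Not at hno
  refine absurd hθ (not_lt.2 (le_of_eq ?_))
  simp only [Chebyshev.theta]
  refine (Finset.sum_subset (fun p hp => ?_) fun p hp hp' => ?_).symm
  · simp only [Finset.mem_filter, Finset.mem_Ioc] at hp ⊢
    exact ⟨⟨hp.1.1, hp.1.2.trans (Nat.floor_mono hxy)⟩, hp.2⟩
  · simp only [Finset.mem_filter, Finset.mem_Ioc, not_and] at hp hp'
    exfalso
    have h1 : x < p := Nat.lt_of_floor_lt (not_le.1 fun hle => hp' ⟨hp.1.1, hle⟩ hp.2)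
    have h2 : (p : ℝ) ≤ y := (Nat.cast_le.2 hp.1.2).trans (Nat.floor_le (by linarith))
    linarith [hno p hp.2 h1]

end FA.ExplicitFormula

end
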