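import Fermat.Agent.ExplicitFormula.Digamma
import Fermat.Agent.RiemannMangoldt.Main

/-!
# Sums over the zeros, good heights and bounds for `ζ'/ζ`

`∑_{|γ| ≤ X} 1 / |ρ| = O (log² X)`, `∑_{|γ| > X} 1 / γ² = O (log X / X)`; every interval
`[m, m + 1]` holds a height at distance `≫ 1 / log m` from all ordinates, and on such a height
`ζ'/ζ = O (log² m)` across the strip.
-/

set_option autoImplicit false

noncomputable section

namespace FA.ExplicitFormula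

open Complex Filter Topology Finset FA.RiemannMangoldt FA.ZeroFree

/-- The order of a zero of `ξ`. -/
def zeroWeight (ρ : ℂ) : ℕ := analyticOrderNatAt xiFn ρ

theorem one_le_zeroWeight {ρ : ℂ} (hρ : xiFn ρ = 0) : 1 ≤ zeroWeight ρ := by
  obtain ⟨Z, h, -, he, -, hne, hord⟩ := exists_xi_factor (R := ‖ρ - 2‖ + 1) (by positivity)
  have hm : ρ ∈ Metric.closedBall (2 : ℂ) (‖ρ - 2‖ + 1) := by
    rw [Metric.mem_closedBall, dist_eq_norm]
    linarith
  rw [zeroWeight, hord ρ hm, Multiset.one_le_count_iff_mem]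
  have h2 : rootProd Z ρ = 0 := (mul_eq_zero.1 ((he ρ).symm.trans hρ)).resolve_right (hne ρ hm)
  simp only [rootProd, Multiset.prod_eq_zero_iff, Multiset.mem_map] at h2
  obtain ⟨x, hx, hsx⟩ := h2
  rwa [sub_eq_zero.1 hsx]

theorem im_ne_zero_of_zero {ρ : ℂ} (hρ : xiFn ρ = 0) : ρ.im ≠ 0 := fun hz =>
  xiFn_real_ne_zero ρ.re (by rwa [show ((ρ.re : ℝ) : ℂ) = ρ from Complex.ext rfl hz.symm])

theorem finite_bounded_zeros (X : ℝ) : {ρ : ℂ | xiFn ρ = 0 ∧ |ρ.im| ≤ X}.Finite :=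
  (finite_xi_zeros (X + 2)).subset fun ρ hρ => by
    obtain ⟨h0, h1⟩ := xiFn_zero_strip hρ.1
    refine ⟨hρ.1, (norm_le_abs_re_add_abs_im _).trans ?_⟩
    simp only [sub_re, sub_im, re_ofNat, im_ofNat, sub_zero]
    rw [abs_of_neg (by linarith)]
    linarith [hρ.2]

/-- The zeros up to height `X`. -/
def zerosUpTo (X : ℝ) : Finset ℂ := (finite_bounded_zeros X).toFinset

theorem mem_zerosUpTo {X : ℝ} {ρ : ℂ} : ρ ∈ zerosUpTo X ↔ xiFn ρ = 0 ∧ |ρ.im| ≤ X := by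
  simp [zerosUpTo]

/-- The ordinates are bounded away from `0`. -/
theorem exists_ordinate_ge :
    ∃ c, 0 < c ∧ ∀ ρ : ℂ, xiFn ρ = 0 → c * (1 + |ρ.im|) ≤ |ρ.im| := by
  obtain ⟨g, hg⟩ : ∃ g : ℝ, g ∈ Set.Ioc 0 1 ∧ ∀ ρ ∈ zerosUpTo 1, g ≤ |ρ.im| := by
    rcases (zerosUpTo 1).eq_empty_or_nonempty with he | hne
    · exact ⟨1, ⟨one_pos, le_rfl⟩, fun ρ hρ => by rw [he] at hρ; simp at hρ⟩
    · obtain ⟨x, hx, hmin⟩ := (zerosUpTo 1).exists_min_image (fun ρ => |ρ.im|) hne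
      exact ⟨|x.im|, ⟨abs_pos.2 (im_ne_zero_of_zero (mem_zerosUpTo.1 hx).1),
        (mem_zerosUpTo.1 hx).2⟩, hmin⟩
  refine ⟨g / 2, half_pos hg.1.1, fun ρ hρ => ?_⟩
  rcases le_total |ρ.im| 1 with h | h
  · have := hg.2 ρ (mem_zerosUpTo.2 ⟨hρ, h⟩)
    nlinarith [hg.1.1, hg.1.2]
  · nlinarith [hg.1.1, hg.1.2]

/-- The zeros with `k ≤ |γ| ≤ k + 1`. -/
theorem exists_block : ∃ C, 0 ≤ C ∧ ∀ (k : ℕ) (S : Finset ℂ),
    (∀ ρ ∈ S, xiFn ρ = 0 ∧ (k : ℝ) ≤ |ρ.im| ∧ |ρ.im| ≤ k + 1) →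
      ((∑ ρ ∈ S, zeroWeight ρ : ℕ) : ℝ) ≤ C * ell k := by
  obtain ⟨K, hK, h⟩ := exists_window
  obtain ⟨C₀, hC₀⟩ : ∃ C₀, C₀ = ((∑ ρ ∈ zerosUpTo 4, zeroWeight ρ : ℕ) : ℝ) := ⟨_, rfl⟩
  have hC₀0 : 0 ≤ C₀ := hC₀ ▸ Nat.cast_nonneg _
  refine ⟨5 * K + C₀, by positivity, fun k S hS => ?_⟩
  have hl := four_le_ell (k : ℝ)
  rcases lt_or_ge k 3 with hk | hk
  · have hk' : (k : ℝ) ≤ 2 := by
      have : k ≤ 2 := by omega
      exact_mod_cast this
    have h1 : ((∑ ρ ∈ S, zeroWeight ρ : ℕ) : ℝ) ≤ C₀ := by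
      rw [hC₀]
      refine Nat.cast_le.2 (Finset.sum_le_sum_of_subset fun ρ hρ => ?_)
      obtain ⟨h0, -, h2⟩ := hS ρ hρ
      exact mem_zerosUpTo.2 ⟨h0, by linarith⟩
    nlinarith [mul_nonneg hK (show 0 ≤ ell (k : ℝ) by linarith)]
  have hk' : (3 : ℝ) ≤ k := by exact_mod_cast hk
  classical
  have hside : ∀ (e : ℝ) (S : Finset ℂ), |e| = 1 →
      (∀ ρ ∈ S, xiFn ρ = 0 ∧ (k : ℝ) ≤ e * ρ.im ∧ e * ρ.im ≤ k + 1) →
      ((∑ ρ ∈ S, zeroWeight ρ : ℕ) : ℝ) ≤ 5 / 2 * K * ell k := by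
    intro e S he hS
    have hee : e * e = 1 := by rw [← sq, ← sq_abs, he, one_pow]
    have hdist : ∀ (v : ℝ) (ρ : ℂ), |ρ.im - e * v| = |e * ρ.im - v| := fun v ρ => by
      rw [show e * ρ.im - v = e * (ρ.im - e * v) by linear_combination v * hee, abs_mul, he,
        one_mul]
    have habs : ∀ v : ℝ, |e * v| = |v| := fun v => by rw [abs_mul, he, one_mul]
    have h1 := h (e * ((k : ℝ) + 2 / 5)) (S.filter fun ρ => e * ρ.im ≤ k + 4 / 5)
      (by rw [habs, abs_of_pos (by linarith)]; linarith) fun ρ hρ => by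
        rw [Finset.mem_filter] at hρ
        obtain ⟨h0, h1, -⟩ := hS ρ hρ.1
        exact ⟨h0, by rw [hdist, abs_le]; constructor <;> linarith [hρ.2]⟩
    have h2 := h (e * ((k : ℝ) + 4 / 5)) (S.filter fun ρ => ¬e * ρ.im ≤ k + 4 / 5)
      (by rw [habs, abs_of_pos (by linarith)]; linarith) fun ρ hρ => by
        rw [Finset.mem_filter, not_le] at hρ
        obtain ⟨h0, h1, h3⟩ := hS ρ hρ.1
        exact ⟨h0, by rw [hdist, abs_le]; constructor <;> linarith [hρ.2]⟩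
    have e0 : ∀ v : ℝ, ell (e * v) = ell v := fun v => by rw [ell, ell, habs]
    rw [e0] at h1 h2
    have e1 : ell ((k : ℝ) + 2 / 5) ≤ 5 / 4 * ell k := ell_near (by norm_num)
    have e2 : ell ((k : ℝ) + 4 / 5) ≤ 5 / 4 * ell k := ell_near (by norm_num)
    rw [← Finset.sum_filter_add_sum_filter_not S fun ρ => e * ρ.im ≤ k + 4 / 5]
    push_cast [zeroWeight] at h1 h2 ⊢
    nlinarith [mul_le_mul_of_nonneg_left e1 hK, mul_le_mul_of_nonneg_left e2 hK]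
  have hp := hside 1 (S.filter fun ρ => 0 ≤ ρ.im) (by norm_num) fun ρ hρ => by
    rw [Finset.mem_filter] at hρ
    obtain ⟨h0, h1, h2⟩ := hS ρ hρ.1
    rw [abs_of_nonneg hρ.2] at h1 h2
    exact ⟨h0, by rwa [one_mul], by rwa [one_mul]⟩
  have hn := hside (-1) (S.filter fun ρ => ¬0 ≤ ρ.im) (by norm_num) fun ρ hρ => by
    rw [Finset.mem_filter, not_le] at hρ
    obtain ⟨h0, h1, h2⟩ := hS ρ hρ.1
    rw [abs_of_neg hρ.2] at h1 h2
    exact ⟨h0, by rwa [neg_one_mul], by rwa [neg_one_mul]⟩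
  rw [← Finset.sum_filter_add_sum_filter_not S fun ρ => 0 ≤ ρ.im]
  push_cast at hp hn ⊢
  nlinarith [mul_nonneg hC₀0 (show 0 ≤ ell (k : ℝ) by linarith)]

/-- The sums by blocks. -/
theorem exists_sum_blocks : ∃ C, 0 ≤ C ∧ ∀ (S : Finset ℂ) (R : Finset ℕ) (f : ℂ → ℝ) (g : ℕ → ℝ),
    (∀ ρ ∈ S, xiFn ρ = 0 ∧ ⌊|ρ.im|⌋₊ ∈ R ∧ f ρ ≤ g ⌊|ρ.im|⌋₊) → (∀ k ∈ R, 0 ≤ g k) →
      ∑ ρ ∈ S, zeroWeight ρ * f ρ ≤ C * ∑ k ∈ R, ell k * g k := by
  obtain ⟨C, hC, h⟩ := exists_block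
  refine ⟨C, hC, fun S R f g hS hg => ?_⟩
  classical
  rw [← Finset.sum_fiberwise_of_maps_to (g := fun ρ : ℂ => ⌊|ρ.im|⌋₊) (t := R)
    (fun ρ hρ => (hS ρ hρ).2.1), Finset.mul_sum]
  refine Finset.sum_le_sum fun k hk => ?_
  refine (Finset.sum_le_sum (g := fun ρ => (zeroWeight ρ : ℝ) * g k) fun ρ hρ => ?_).trans ?_
  · rw [Finset.mem_filter] at hρ
    have := (hS ρ hρ.1).2.2
    rw [hρ.2] at this
    exact mul_le_mul_of_nonneg_left this (Nat.cast_nonneg _)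
  · rw [← Finset.sum_mul, ← Nat.cast_sum, ← mul_assoc]
    refine mul_le_mul_of_nonneg_right (h k _ fun ρ hρ => ?_) (hg k hk)
    rw [Finset.mem_filter] at hρ
    refine ⟨(hS ρ hρ.1).1, ?_, ?_⟩
    · rw [← hρ.2]
      exact Nat.floor_le (abs_nonneg _)
    · rw [← hρ.2]
      exact (Nat.lt_floor_add_one _).le

/-- `∑_{|γ| ≤ X} w / (1 + |γ|) = O (log² X)`. -/
theorem exists_sum_head : ∃ C, 0 ≤ C ∧ ∀ (X : ℝ) (S : Finset ℂ), 0 ≤ X →
    (∀ ρ ∈ S, xiFn ρ = 0 ∧ |ρ.im| ≤ X) →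
      ∑ ρ ∈ S, zeroWeight ρ * (1 / (1 + |ρ.im|)) ≤ C * ell X ^ 2 := by
  obtain ⟨C, hC, h⟩ := exists_sum_blocks
  refine ⟨2 * C, by positivity, fun X S hX hS => ?_⟩
  refine (h S (range (⌊X⌋₊ + 1)) _ (fun k => 1 / ((k : ℝ) + 1)) (fun ρ hρ => ⟨(hS ρ hρ).1,
    Finset.mem_range.2 (Nat.lt_succ_of_le (Nat.floor_mono (hS ρ hρ).2)), ?_⟩)
    fun k _ => by positivity).trans ?_
  · refine one_div_le_one_div_of_le (by positivity) ?_
    linarith [Nat.floor_le (abs_nonneg ρ.im)]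
  · rw [mul_assoc, mul_left_comm]
    refine mul_le_mul_of_nonneg_left ?_ hC
    refine (Finset.sum_le_sum (g := fun k : ℕ => ell X * (1 / ((k : ℝ) + 1)))
      fun k hk => ?_).trans ?_
    · refine mul_le_mul_of_nonneg_right (ell_mono ?_) (by positivity)
      rw [Nat.abs_cast, abs_of_nonneg hX]
      have h1 : (k : ℝ) ≤ ⌊X⌋₊ := Nat.cast_le.2 (Nat.lt_succ_iff.1 (Finset.mem_range.1 hk))
      linarith [Nat.floor_le hX]
    · rw [← Finset.mul_sum, sq, ← mul_assoc, mul_comm (2 : ℝ), mul_assoc]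
      refine mul_le_mul_of_nonneg_left ?_ (ell_pos X).le
      have h1 := harmonic_le_one_add_log (⌊X⌋₊ + 1)
      simp [harmonic] at h1
      simp only [one_div]
      refine h1.trans ?_
      have h2 : Real.log ((⌊X⌋₊ : ℝ) + 1) ≤ ell X :=
        Real.log_le_log (by positivity) (by rw [abs_of_nonneg hX]; linarith [Nat.floor_le hX])
      linarith [four_le_ell X]

/-- `∑_{|γ| > X} w / (1 + |γ|)² = O (log X / X)`. -/
theorem exists_sum_tail : ∃ C, 0 ≤ C ∧ ∀ (X : ℝ) (S : Finset ℂ), 1 ≤ X →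
    (∀ ρ ∈ S, xiFn ρ = 0 ∧ X < |ρ.im|) →
      ∑ ρ ∈ S, zeroWeight ρ * (1 / (1 + |ρ.im|) ^ 2) ≤ C * (ell X / X) := by
  obtain ⟨C, hC, h⟩ := exists_sum_blocks
  refine ⟨10 * C, by positivity, fun X S hX hS => ?_⟩
  obtain ⟨N, hN⟩ : ∃ N, N = ⌊X⌋₊ := ⟨_, rfl⟩
  have hX0 : 0 < X := by linarith
  have hN1 : 1 ≤ N := hN ▸ Nat.le_floor (by simpa using hX)
  have hNX : (N : ℝ) ≤ X := hN ▸ Nat.floor_le hX0.le
  have hXN : X < N + 1 := hN ▸ Nat.lt_floor_add_one X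
  obtain ⟨M, hM⟩ : ∃ M, M = max N (S.sup fun ρ => ⌊|ρ.im|⌋₊ + 1) := ⟨_, rfl⟩
  have hNM : N ≤ M := hM ▸ le_max_left _ _
  refine (h S (Ico N M) _ (fun k => 1 / ((k : ℝ) + 1) ^ 2) (fun ρ hρ => ⟨(hS ρ hρ).1,
    Finset.mem_Ico.2 ⟨hN ▸ Nat.floor_mono (hS ρ hρ).2.le, ?_⟩, ?_⟩)
    fun k _ => by positivity).trans ?_
  · rw [hM]
    refine lt_max_of_lt_right ?_
    exact Nat.lt_of_succ_le (Finset.le_sup (f := fun ρ : ℂ => ⌊|ρ.im|⌋₊ + 1) hρ)
  · refine one_div_le_one_div_of_le (by positivity) (pow_le_pow_left₀ (by positivity) ?_ 2)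
    linarith [Nat.floor_le (abs_nonneg ρ.im)]
  have hroot : 1 ≤ √X := Real.one_le_sqrt.2 hX
  obtain ⟨P, hP⟩ : ∃ P : ℕ → ℝ, P = fun k : ℕ =>
      -(ell X / k) - 8 / √(X + 1) * (1 / √(k : ℝ)) := ⟨_, rfl⟩
  have hterm : ∀ k ∈ Ico N M, ell (k : ℝ) * (1 / ((k : ℝ) + 1) ^ 2) ≤ P (k + 1) - P k := by
    intro k hk
    rw [Finset.mem_Ico] at hk
    have hk1 : (1 : ℝ) ≤ k := by exact_mod_cast hN1.trans hk.1
    have hkX : X < (k : ℝ) + 1 := by
      have : (N : ℝ) ≤ k := Nat.cast_le.2 hk.1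
      linarith
    obtain ⟨r, hr⟩ : ∃ r, r = √(((k : ℝ) + 1) / (X + 1)) := ⟨_, rfl⟩
    have hell : ell (k : ℝ) ≤ ell X + 4 * r := by
      have h1 : ell (k : ℝ) ≤ ell X + Real.log (2 * ((k : ℝ) + 1) / (X + 1)) := by
        rw [ell, ell, Nat.abs_cast, abs_of_nonneg hX0.le, ← Real.log_mul (by positivity)
          (by positivity)]
        refine Real.log_le_log (by positivity) ?_
        rw [mul_div_assoc', le_div_iff₀ (by positivity)]
        nlinarith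
      refine h1.trans (add_le_add le_rfl ?_)
      have h2 := Real.log_le_sub_one_of_pos (show 0 < √(2 * ((k : ℝ) + 1) / (X + 1)) by positivity)
      rw [Real.log_sqrt (by positivity)] at h2
      have h7 : √(2 * ((k : ℝ) + 1) / (X + 1)) ≤ 2 * r := by
        rw [mul_div_assoc, Real.sqrt_mul two_pos.le, ← hr]
        exact mul_le_mul_of_nonneg_right (Real.sqrt_le_left (by norm_num) |>.2 (by norm_num))
          (hr ▸ Real.sqrt_nonneg _)
      nlinarith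
    have h8 : ell X * (1 / ((k : ℝ) + 1) ^ 2) ≤ ell X * (1 / k - 1 / ((k : ℝ) + 1)) := by
      refine mul_le_mul_of_nonneg_left ?_ (ell_pos X).le
      rw [show 1 / (k : ℝ) - 1 / ((k : ℝ) + 1) = 1 / (k * (k + 1)) by field_simp; ring]
      exact one_div_le_one_div_of_le (by positivity) (by nlinarith)
    obtain ⟨p, hp⟩ : ∃ p, p = √(k : ℝ) := ⟨_, rfl⟩
    obtain ⟨q, hq⟩ : ∃ q, q = √((k : ℝ) + 1) := ⟨_, rfl⟩
    have hp0 : 0 < p := hp ▸ Real.sqrt_pos.2 (by linarith)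
    have hq0 : 0 < q := hq ▸ Real.sqrt_pos.2 (by linarith)
    have hp2 : p ^ 2 = k := by rw [hp, Real.sq_sqrt (by linarith)]
    have hq2 : q ^ 2 = (k : ℝ) + 1 := by rw [hq, Real.sq_sqrt (by linarith)]
    have hpq : p ≤ q := hp ▸ hq ▸ Real.sqrt_le_sqrt (by linarith)
    have h9 : 4 * r * (1 / ((k : ℝ) + 1) ^ 2) ≤ 8 / √(X + 1) * (1 / p - 1 / q) := by
      have e : r = q / √(X + 1) := by rw [hr, hq, Real.sqrt_div (by positivity)]
      rw [e, ← hq2]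
      have h10 : 1 / p - 1 / q = 1 / (p * q * (p + q)) := by
        field_simp
        nlinarith
      rw [h10, show 4 * (q / √(X + 1)) * (1 / (q ^ 2) ^ 2) = 8 / √(X + 1) * (1 / (2 * q ^ 3)) by
        field_simp; ring]
      refine mul_le_mul_of_nonneg_left ?_ (by positivity)
      refine one_div_le_one_div_of_le (by positivity) ?_
      nlinarith [mul_le_mul hpq hpq hp0.le hq0.le, mul_pos hp0 hq0]
    have hexp : P (k + 1) - P k =
        ell X * (1 / k - 1 / ((k : ℝ) + 1)) + 8 / √(X + 1) * (1 / p - 1 / q) := by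
      rw [hP, hp, hq]
      push_cast
      ring
    rw [hexp]
    calc ell (k : ℝ) * (1 / ((k : ℝ) + 1) ^ 2)
        ≤ (ell X + 4 * r) * (1 / ((k : ℝ) + 1) ^ 2) :=
          mul_le_mul_of_nonneg_right hell (by positivity)
      _ ≤ _ := by rw [add_mul]; exact add_le_add h8 h9
  rw [mul_assoc, mul_left_comm]
  refine mul_le_mul_of_nonneg_left ((Finset.sum_le_sum hterm).trans ?_) hC
  rw [Finset.sum_Ico_sub P hNM]
  have hPM : P M ≤ 0 := by
    rw [hP]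
    simp only
    have : 0 ≤ ell X / M := div_nonneg (ell_pos X).le (Nat.cast_nonneg _)
    have : 0 ≤ 8 / √(X + 1) * (1 / √(M : ℝ)) := by positivity
    linarith
  have hPN : -P N ≤ 10 * (ell X / X) := by
    rw [hP]
    simp only
    have hN' : X / 2 ≤ N := by
      have : (1 : ℝ) ≤ N := by exact_mod_cast hN1
      linarith
    have h1 : ell X / N ≤ 2 * (ell X / X) := by
      rw [← mul_div_assoc, div_le_div_iff₀ (by linarith) hX0]
      nlinarith [ell_pos X]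
    have h2 : 8 / √(X + 1) * (1 / √(N : ℝ)) ≤ 16 / X := by
      rw [div_mul_div_comm, mul_one, ← Real.sqrt_mul (by linarith),
        div_le_div_iff₀ (Real.sqrt_pos.2 (by positivity)) hX0]
      have h3 : X / 2 ≤ √((X + 1) * N) := by
        refine Real.le_sqrt_of_sq_le ?_
        nlinarith
      linarith
    have h3 : 16 / X ≤ 4 * (ell X / X) := by
      rw [← mul_div_assoc]
      gcongr
      linarith [four_le_ell X]
    have h4 : 0 ≤ ell X / X := div_nonneg (ell_pos X).le hX0.le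
    linarith
  linarith

/-- **A height away from all ordinates.** -/
theorem exists_good_height : ∃ c, 0 < c ∧ ∀ m : ℕ, ∃ T : ℝ, (m : ℝ) ≤ T ∧ T ≤ m + 1 ∧
    ∀ ρ : ℂ, xiFn ρ = 0 → c / ell m ≤ |(|ρ.im| - T)| := by
  obtain ⟨C, hC, hblock⟩ := exists_block
  refine ⟨1 / (3 * (C + 1)), by positivity, fun m => ?_⟩
  classical
  obtain ⟨A, hA⟩ : ∃ A : Finset ℝ, A =
      ((zerosUpTo ((m : ℝ) + 1)).filter fun ρ => (m : ℝ) ≤ |ρ.im|).image fun ρ => |ρ.im| := ⟨_, rfl⟩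
  have hl := four_le_ell (m : ℝ)
  have hcard : (A.card : ℝ) ≤ C * ell m := by
    refine le_trans ?_ (hblock m ((zerosUpTo ((m : ℝ) + 1)).filter fun ρ => (m : ℝ) ≤ |ρ.im|)
      fun ρ hρ => ?_)
    · rw [hA]
      refine Nat.cast_le.2 (Finset.card_image_le.trans ?_)
      rw [Finset.card_eq_sum_ones]
      exact Finset.sum_le_sum fun ρ hρ =>
        one_le_zeroWeight (mem_zerosUpTo.1 (Finset.mem_filter.1 hρ).1).1
    · rw [Finset.mem_filter, mem_zerosUpTo] at hρ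
      exact ⟨hρ.1.1, hρ.2, hρ.1.2⟩
  obtain ⟨d, hd⟩ : ∃ d : ℝ, d = 1 / ((A.card : ℝ) + 2) := ⟨_, rfl⟩
  have hd0 : 0 < d := by rw [hd]; positivity
  obtain ⟨j, hj, hfree⟩ : ∃ j ∈ range (A.card + 1),
      ∀ a ∈ A, d / 3 ≤ |a - ((m : ℝ) + ((j : ℝ) + 1) * d)| := by
    by_contra hno
    push Not at hno
    choose! f hf hclose using hno
    have hinj : Set.InjOn f (range (A.card + 1) : Set ℕ) := by
      intro i hi j hj hij
      have h1 := hclose i hi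
      have h2 := hclose j hj
      rw [hij] at h1
      rw [abs_lt] at h1 h2
      by_contra hne
      rcases Nat.lt_or_gt_of_ne hne with hlt | hlt
      · have h3 : ((i : ℝ) + 1) ≤ j := by exact_mod_cast hlt
        nlinarith
      · have h3 : ((j : ℝ) + 1) ≤ i := by exact_mod_cast hlt
        nlinarith
    have := Finset.card_le_card_of_injOn f (fun i hi => hf i hi) hinj
    rw [Finset.card_range] at this
    omega
  have hjd : ((j : ℝ) + 2) * d ≤ 1 := by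
    rw [hd, mul_one_div, div_le_one (by positivity)]
    have : (j : ℝ) ≤ A.card := by
      exact_mod_cast Nat.lt_succ_iff.1 (Finset.mem_range.1 hj)
    linarith
  have hj0 : 0 ≤ (j : ℝ) * d := by positivity
  refine ⟨(m : ℝ) + ((j : ℝ) + 1) * d, by nlinarith, by nlinarith, fun ρ hρ => ?_⟩
  have hc : 1 / (3 * (C + 1)) / ell m ≤ d / 3 := by
    rw [hd, div_div, div_div]
    refine one_div_le_one_div_of_le (by positivity) ?_
    nlinarith
  refine hc.trans ?_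
  by_cases hin : (m : ℝ) ≤ |ρ.im| ∧ |ρ.im| ≤ m + 1
  · refine hfree _ ?_
    rw [hA]
    exact Finset.mem_image.2 ⟨ρ, Finset.mem_filter.2 ⟨mem_zerosUpTo.2 ⟨hρ, hin.2⟩, hin.1⟩, rfl⟩
  · rcases not_and_or.1 hin with h | h
    · exact le_trans (by nlinarith) (neg_le_abs _)
    · exact le_trans (by nlinarith) (le_abs_self _)

/-- `-ζ'/ζ`, continued to `re s > -2` through `ξ`. -/
def negLogDeriv (s : ℂ) : ℂ := -xiLogDeriv s + (s - 1)⁻¹ + gammaReg s

theorem negLogDeriv_eq {s : ℂ} (hs : 0 < s.re) (hs1 : s ≠ 1) (hz : riemannZeta s ≠ 0) :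
    negLogDeriv s = -(deriv riemannZeta s / riemannZeta s) := by
  rw [negLogDeriv, xiLogDeriv_eq hs hs1 hz, gammaReg_eq hs]
  ring

theorem xiLogDeriv_eq_reg {s : ℂ} (hs : 0 < s.re) (hs1 : s ≠ 1) (hz : riemannZeta s ≠ 0) :
    xiLogDeriv s = (s - 1)⁻¹ + gammaReg s + deriv riemannZeta s / riemannZeta s := by
  rw [xiLogDeriv_eq hs hs1 hz, gammaReg_eq hs]
  ring

theorem norm_inv_sub_one_le {s : ℂ} {a : ℝ} (ha : 0 < a) (h : a ≤ |s.im| ∨ a ≤ |s.re - 1|) :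
    ‖(s - 1)⁻¹‖ ≤ 1 / a := by
  rw [norm_inv, one_div]
  refine inv_anti₀ ha (h.elim (fun h => h.trans ?_) fun h => h.trans ?_)
  · simpa using abs_im_le_norm (s - 1)
  · simpa using abs_re_le_norm (s - 1)

/-- The bound on a height away from the ordinates. -/
theorem exists_horizontal : ∃ C, 0 ≤ C ∧ ∀ u t δ : ℝ, -1 / 2 ≤ u → u ≤ 3 / 2 → 3 ≤ |t| →
    0 < δ → δ ≤ 1 → (∀ ρ, xiFn ρ = 0 → δ ≤ |(|ρ.im| - |t|)|) →
      ‖negLogDeriv ((u : ℂ) + t * I)‖ ≤ C * ell t / δ := by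
  obtain ⟨K, hK, hexp⟩ := exists_zeta_expansion
  have hright : ∀ u t δ : ℝ, 1 / 2 ≤ u → u ≤ 3 / 2 → 3 ≤ |t| → 0 < δ → δ ≤ 1 →
      (∀ ρ, xiFn ρ = 0 → δ ≤ |(|ρ.im| - |t|)|) →
      ‖xiLogDeriv ((u : ℂ) + t * I)‖ ≤ (2 * K + 5) * ell t / δ := by
    intro u t δ hu hu2 ht hδ hδ1 hgap
    obtain ⟨Z, hZ, hcard, hcount, hlog⟩ := hexp t ht
    have ht0 : t ≠ 0 := fun h => by rw [h] at ht; norm_num at ht
    have him : ((u : ℂ) + t * I).im = t := by simp
    have hre : ((u : ℂ) + t * I).re = u := by simp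
    have hs1 : (u : ℂ) + t * I ≠ 1 := fun h => ht0 (by simpa using congrArg Complex.im h)
    have hz : riemannZeta ((u : ℂ) + t * I) ≠ 0 := fun h => by
      have h2 := hgap _ ((xiFn_eq_zero_iff (by rw [hre]; linarith) hs1).2 h)
      rw [him, sub_self, abs_zero] at h2
      linarith
    have hZd : ∀ ρ ∈ Z, ‖((u : ℂ) + t * I - ρ)⁻¹‖ ≤ 1 / δ := by
      intro ρ hρ
      have hc : 0 < Z.count ρ := Multiset.count_pos.2 hρ
      rw [← hcount ρ (hZ ρ hρ)] at hc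
      have hzρ : riemannZeta ρ = 0 := apply_eq_zero_of_analyticOrderNatAt_ne_zero hc.ne'
      have h0 : 0 < ρ.re := by
        have h := (abs_re_le_norm _).trans (hZ ρ hρ)
        simp at h
        linarith [(abs_le.1 h).1]
      have h1 : ρ ≠ 1 := fun h => by
        have h2 := (abs_im_le_norm _).trans (hZ ρ hρ)
        rw [h] at h2
        simp at h2
        linarith
      have h3 := hgap ρ ((xiFn_eq_zero_iff h0 h1).2 hzρ)
      rw [norm_inv, one_div]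
      refine inv_anti₀ hδ ((h3.trans ((abs_abs_sub_abs_le_abs_sub _ _))).trans ?_)
      rw [abs_sub_comm]
      simpa using abs_im_le_norm ((u : ℂ) + t * I - ρ)
    have hsum : ‖(Z.map fun ρ => ((u : ℂ) + t * I - ρ)⁻¹).sum‖ ≤ K * ell t * (1 / δ) := by
      refine (norm_multiset_sum_le _).trans ?_
      rw [Multiset.map_map]
      refine (Multiset.sum_le_card_nsmul _ (1 / δ) fun x hx => ?_).trans ?_
      · obtain ⟨ρ, hρ, rfl⟩ := Multiset.mem_map.1 hx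
        exact hZd ρ hρ
      · rw [Multiset.card_map, nsmul_eq_mul]
        exact mul_le_mul_of_nonneg_right hcard (by positivity)
    have hz2 := hlog ((u : ℂ) + t * I) (by
      rw [show (u : ℂ) + t * I - (((3 / 2 : ℝ) : ℂ) + t * I) = ((u - 3 / 2 : ℝ) : ℂ) by
        push_cast; ring, Complex.norm_real, Real.norm_eq_abs, abs_le]
      constructor <;> linarith) hz
    rw [xiLogDeriv_eq_reg (by rw [hre]; linarith) hs1 hz]
    have hg := norm_gammaReg_le (s := (u : ℂ) + t * I) (by rw [hre]; linarith)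
      (by rw [hre]; linarith)
    rw [him] at hg
    have hi := norm_inv_sub_one_le (s := (u : ℂ) + t * I) one_pos (Or.inl (by rw [him]; linarith))
    have hl := four_le_ell t
    have hd1 : 1 ≤ 1 / δ := by rw [le_div_iff₀ hδ]; linarith
    have h4 := norm_sub_norm_le (deriv riemannZeta ((u : ℂ) + t * I) /
      riemannZeta ((u : ℂ) + t * I)) ((Z.map fun ρ => ((u : ℂ) + t * I - ρ)⁻¹).sum)
    refine (norm_add₃_le).trans ?_
    rw [mul_div_assoc, show ell t / δ = ell t * (1 / δ) by ring]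
    have hg' : ‖gammaReg ((u : ℂ) + t * I)‖ ≤ 8 + 2 * ell t := hg
    nlinarith [mul_le_mul_of_nonneg_left hd1 (show 0 ≤ (K + 5) * ell t by positivity)]
  refine ⟨2 * K + 10, by positivity, fun u t δ hu hu2 ht hδ hδ1 hgap => ?_⟩
  have hL : ‖xiLogDeriv ((u : ℂ) + t * I)‖ ≤ (2 * K + 5) * ell t / δ := by
    rcases le_total (1 / 2) u with h | h
    · exact hright u t δ h hu2 ht hδ hδ1 hgap
    · have e : (u : ℂ) + t * I = 1 - (((1 - u : ℝ) : ℂ) + ((-t : ℝ) : ℂ) * I) := by push_cast; ring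
      rw [e, xiLogDeriv_one_sub, norm_neg]
      have := hright (1 - u) (-t) δ (by linarith) (by linarith) (by rwa [abs_neg]) hδ hδ1
        (fun ρ hρ => by rw [abs_neg]; exact hgap ρ hρ)
      rwa [show ell (-t) = ell t by rw [ell, ell, abs_neg]] at this
  have hg := norm_gammaReg_le (s := (u : ℂ) + t * I) (by simp; linarith) (by simp; linarith)
  have hg' : ‖gammaReg ((u : ℂ) + t * I)‖ ≤ 8 + 2 * ell t := by
    simpa [ell] using hg
  have hi := norm_inv_sub_one_le (s := (u : ℂ) + t * I) one_pos (Or.inl (by simp; linarith))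
  have hd1 : 1 ≤ 1 / δ := by rw [le_div_iff₀ hδ]; linarith
  rw [negLogDeriv]
  refine (norm_add₃_le).trans ?_
  rw [norm_neg]
  rw [mul_div_assoc, show ell t / δ = ell t * (1 / δ) by ring] at hL ⊢
  have hl := four_le_ell t
  nlinarith [mul_le_mul_of_nonneg_left hd1 (show 0 ≤ 5 * ell t by positivity)]

/-- The bound on the line `re s = -1/2`. -/
theorem exists_left : ∃ C, 0 ≤ C ∧ ∀ y : ℝ,
    ‖negLogDeriv (((-1 / 2 : ℝ) : ℂ) + y * I)‖ ≤ C * ell y := by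
  obtain ⟨C₀, hC₀, hreal⟩ := FA.DLVP.exists_real_bound
  refine ⟨C₀ + 10, by positivity, fun y => ?_⟩
  have hl := four_le_ell y
  have e : ((-1 / 2 : ℝ) : ℂ) + y * I = 1 - (((3 / 2 : ℝ) : ℂ) + ((-y : ℝ) : ℂ) * I) := by
    push_cast; ring
  obtain ⟨w, hw⟩ : ∃ w : ℂ, w = ((3 / 2 : ℝ) : ℂ) + ((-y : ℝ) : ℂ) * I := ⟨_, rfl⟩
  have hwre : w.re = 3 / 2 := by simp [hw]
  have hwim : w.im = -y := by simp [hw]
  have hw1 : w ≠ 1 := fun h => by rw [h] at hwre; norm_num at hwre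
  have hL : ‖xiLogDeriv w‖ ≤ 2 + (8 + 2 * ell y) + (2 + C₀) := by
    rw [xiLogDeriv_eq_reg (by rw [hwre]; norm_num) hw1
      (riemannZeta_ne_zero_of_one_le_re (by rw [hwre]; norm_num))]
    refine (norm_add₃_le).trans (add_le_add (add_le_add ?_ ?_) ?_)
    · refine (norm_inv_sub_one_le (a := 1 / 2) (by norm_num)
        (Or.inr (by rw [hwre]; norm_num))).trans (by norm_num)
    · have := norm_gammaReg_le (s := w) (by rw [hwre]; norm_num) (by rw [hwre]; norm_num)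
      rw [hwim, abs_neg] at this
      exact this
    · refine (FA.DLVP.norm_logDeriv_zeta_le_real (σ := 1 + 1 / 2) (by norm_num)
        (by rw [hwre]; norm_num)).trans ?_
      exact (hreal (1 / 2) (by norm_num) (by norm_num)).trans (by norm_num)
  have hg := norm_gammaReg_le (s := ((-1 / 2 : ℝ) : ℂ) + y * I) (by simp) (by simp; norm_num)
  have hg' : ‖gammaReg (((-1 / 2 : ℝ) : ℂ) + y * I)‖ ≤ 8 + 2 * ell y := by
    simpa [ell] using hg
  have hi := norm_inv_sub_one_le (s := ((-1 / 2 : ℝ) : ℂ) + y * I) (a := 1) one_pos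
    (Or.inr (by simp; norm_num))
  rw [negLogDeriv]
  refine (norm_add₃_le).trans ?_
  rw [norm_neg]
  have hxi : ‖xiLogDeriv (((-1 / 2 : ℝ) : ℂ) + y * I)‖ = ‖xiLogDeriv w‖ := by
    rw [e, xiLogDeriv_one_sub, norm_neg, hw]
  rw [hxi]
  nlinarith

end FA.ExplicitFormula

end
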