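import Fermat.Agent.RiemannMangoldt.ArgGamma
import Mathlib.Analysis.Real.Pi.Bounds
import Mathlib.Analysis.SpecialFunctions.Gamma.Digamma
import Mathlib.NumberTheory.Harmonic.Bounds

/-!
# The bound `Γ'/Γ (z) = O (log |z|)` on `re z ≥ 1/4`

From the series of Gauss, differentiated term by term.
-/

set_option autoImplicit false

noncomputable section

namespace FA.ExplicitFormula

open Complex Filter Topology Finset FA.RiemannMangoldt

/-- The derivative of the logarithm of `Γ` as a series. -/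
theorem hasSum_digamma {z : ℂ} (hz : 0 < z.re) :
    HasSum (fun k : ℕ => ((Real.log (1 + 1 / (k + 1)) : ℝ) : ℂ) - (z + (k + 1))⁻¹)
      (deriv Complex.Gamma z / Complex.Gamma z + z⁻¹) := by
  obtain ⟨R, hR⟩ : ∃ R, R = ‖z‖ + 1 := ⟨_, rfl⟩
  obtain ⟨U, hU⟩ : ∃ U : Set ℂ, U = {u | 0 < u.re} ∩ Metric.ball 0 R := ⟨_, rfl⟩
  have hUo : IsOpen U := hU ▸ (isOpen_lt continuous_const continuous_re).inter Metric.isOpen_ball
  have hzU : z ∈ U := by
    rw [hU]
    exact ⟨hz, by rw [mem_ball_zero_iff]; linarith⟩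
  have hs : Summable fun k : ℕ => 1 / ((k : ℝ) + 1) ^ 2 := by
    have := (summable_nat_add_iff (f := fun n : ℕ => 1 / (n : ℝ) ^ 2) 1).2
      (Real.summable_one_div_nat_pow.2 one_lt_two)
    simpa using this
  have hd : ∀ k : ℕ, ∀ u ∈ U, HasDerivAt (gammaStep k)
      (((Real.log (1 + 1 / (k + 1)) : ℝ) : ℂ) - (u + (k + 1))⁻¹) u := fun k u hu => by
    rw [hU] at hu
    have h1 : 0 < u.re := hu.1
    have hk : ((k : ℂ) + 1) ≠ 0 := Nat.cast_add_one_ne_zero k
    have h2 : 0 < (1 + u / ((k : ℂ) + 1)).re := by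
      have : (u / ((k : ℂ) + 1)).re = u.re / ((k : ℝ) + 1) := by
        rw [show ((k : ℂ) + 1) = (((k : ℝ) + 1 : ℝ) : ℂ) by push_cast; ring, div_ofReal_re]
      rw [add_re, one_re, this]
      have : 0 < u.re / ((k : ℝ) + 1) := by positivity
      linarith
    refine (((hasDerivAt_id' u).mul_const _).sub
      ((((hasDerivAt_id' u).div_const ((k : ℂ) + 1)).const_add 1).clog (Or.inl h2))).congr_deriv ?_
    have h3 : u + ((k : ℂ) + 1) ≠ 0 := fun h => by
      have := congrArg Complex.re h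
      simp at this
      linarith [(Nat.cast_nonneg k : (0 : ℝ) ≤ k)]
    have h4 : 1 + u / ((k : ℂ) + 1) ≠ 0 := fun h => by rw [h] at h2; simp at h2
    rw [one_mul, div_div, show ((k : ℂ) + 1) * (1 + u / ((k : ℂ) + 1)) = u + ((k : ℂ) + 1) by
      field_simp; ring]
    simp only [one_div]
  have h := Complex.hasSum_deriv_of_summable_norm (F := gammaStep) (hs.mul_left (R + R ^ 2))
    (fun k u hu => (hd k u hu).differentiableAt.differentiableWithinAt) hUo (fun k u hu => by
      rw [hU] at hu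
      have hu2 : ‖u‖ ≤ R := (mem_ball_zero_iff.1 hu.2).le
      refine (norm_gammaStep_le k (le_of_lt hu.1)).trans ?_
      gcongr) hzU
  simp only [fun k => (hd k z hzU).deriv] at h
  have hsum : HasDerivAt (fun u => ∑' k, gammaStep k u)
      (deriv Complex.Gamma z / Complex.Gamma z + z⁻¹) z := by
    refine ((hasDerivAt_logGam hz).add (hasDerivAt_log (Or.inl hz))).congr_of_eventuallyEq ?_
    refine Eventually.of_forall fun u => ?_
    show (∑' k, gammaStep k u) = logGam u + Complex.log u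
    rw [logGam]
    ring
  rw [hsum.deriv] at h
  exact h

/-- The bound of a term. -/
theorem norm_digammaTerm_le (k : ℕ) {z : ℂ} (hz : 0 ≤ z.re) :
    ‖((Real.log (1 + 1 / (k + 1)) : ℝ) : ℂ) - (z + (k + 1))⁻¹‖ ≤ 3 / ((k : ℝ) + 1) ∧
      ‖((Real.log (1 + 1 / (k + 1)) : ℝ) : ℂ) - (z + (k + 1))⁻¹‖ ≤
        (1 + ‖z‖) / ((k : ℝ) + 1) ^ 2 := by
  have hk : (0 : ℝ) < (k : ℝ) + 1 := by positivity
  obtain ⟨x, hx⟩ : ∃ x : ℝ, x = 1 / ((k : ℝ) + 1) := ⟨_, rfl⟩
  rw [← hx]
  have hx0 : 0 ≤ x := by rw [hx]; positivity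
  have hxi : x ≤ 1 := by rw [hx, div_le_one hk]; linarith [(Nat.cast_nonneg k : (0 : ℝ) ≤ k)]
  have hzk : (k : ℝ) + 1 ≤ ‖z + ((k : ℂ) + 1)‖ := by
    refine le_trans ?_ (re_le_norm _)
    simp
    linarith
  have hzk0 : z + ((k : ℂ) + 1) ≠ 0 := norm_pos_iff.1 (lt_of_lt_of_le hk hzk)
  have hl0 : 0 ≤ Real.log (1 + x) := Real.log_nonneg (by linarith)
  have hlx : Real.log (1 + x) ≤ x := by
    linarith [Real.log_le_sub_one_of_pos (show 0 < 1 + x by linarith)]
  have hinv : ‖(z + ((k : ℂ) + 1))⁻¹‖ ≤ x := by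
    rw [norm_inv, hx, one_div]
    exact inv_anti₀ hk hzk
  constructor
  · refine (norm_sub_le _ _).trans ?_
    rw [Complex.norm_real, Real.norm_of_nonneg hl0]
    have : 3 / ((k : ℝ) + 1) = 3 * x := by rw [hx]; ring
    linarith
  · have e : ((Real.log (1 + x) : ℝ) : ℂ) - (z + ((k : ℂ) + 1))⁻¹ =
        (Complex.log (1 + (x : ℂ)) - x) + z * ((x : ℂ) * (z + ((k : ℂ) + 1))⁻¹) := by
      rw [Complex.ofReal_log (by linarith)]
      push_cast
      have hk' : ((k : ℂ) + 1) ≠ 0 := Nat.cast_add_one_ne_zero k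
      rw [show (x : ℂ) = ((k : ℂ) + 1)⁻¹ by rw [hx]; push_cast; ring]
      field_simp
      ring
    rw [e]
    have h1 := norm_log_one_add_sub_le (w := (x : ℂ)) (by simpa using hx0)
    rw [Complex.norm_real, Real.norm_of_nonneg hx0] at h1
    refine (norm_add_le _ _).trans ?_
    rw [norm_mul z, norm_mul (x : ℂ), Complex.norm_real, Real.norm_of_nonneg hx0]
    have h2 : ‖z‖ * (x * ‖(z + ((k : ℂ) + 1))⁻¹‖) ≤ ‖z‖ * (x * x) := by gcongr
    have h3 : (1 + ‖z‖) / ((k : ℝ) + 1) ^ 2 = x ^ 2 + ‖z‖ * (x * x) := by rw [hx]; field_simp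
    linarith

/-- **The bound.** -/
theorem norm_digamma_le {z : ℂ} (hz : 1 / 4 ≤ z.re) :
    ‖deriv Complex.Gamma z / Complex.Gamma z‖ ≤ 9 + 3 * Real.log (‖z‖ + 2) := by
  obtain ⟨N, hN⟩ : ∃ N : ℕ, N = ⌈‖z‖⌉₊ + 1 := ⟨_, rfl⟩
  have hN1 : ‖z‖ + 1 ≤ N := by
    rw [hN]
    push_cast
    linarith [Nat.le_ceil ‖z‖]
  have hN2 : (N : ℝ) ≤ ‖z‖ + 2 := by
    rw [hN]
    push_cast
    linarith [Nat.ceil_lt_add_one (norm_nonneg z)]
  have h := hasSum_digamma (show 0 < z.re by linarith)
  obtain ⟨a, ha⟩ : ∃ a : ℕ → ℂ,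
      a = fun k : ℕ => ((Real.log (1 + 1 / (k + 1)) : ℝ) : ℂ) - (z + (k + 1))⁻¹ := ⟨_, rfl⟩
  rw [← ha] at h
  have hpart : ∀ M : ℕ, ‖∑ k ∈ range M, a k‖ ≤ 3 * (1 + Real.log (‖z‖ + 2)) + 1 := by
    intro M
    refine (norm_sum_le _ _).trans ?_
    calc ∑ k ∈ range M, ‖a k‖ ≤ ∑ k ∈ range (max M N), ‖a k‖ :=
          sum_le_sum_of_subset_of_nonneg (range_mono (le_max_left _ _))
            fun _ _ _ => norm_nonneg _
      _ = ∑ k ∈ range N, ‖a k‖ + ∑ k ∈ Ico N (max M N), ‖a k‖ :=
          (sum_range_add_sum_Ico _ (le_max_right _ _)).symm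
      _ ≤ 3 * (1 + Real.log (‖z‖ + 2)) + 1 := by
          refine add_le_add ?_ ?_
          · refine (sum_le_sum (g := fun k : ℕ => 3 * ((k : ℝ) + 1)⁻¹) fun k _ => ?_).trans ?_
            · rw [ha, ← div_eq_mul_inv]
              exact (norm_digammaTerm_le k (by linarith)).1
            · rw [← mul_sum]
              refine mul_le_mul_of_nonneg_left ?_ (by norm_num)
              have h1 := harmonic_le_one_add_log N
              simp [harmonic] at h1
              refine h1.trans ?_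
              have := Real.log_le_log (show (0 : ℝ) < N by linarith [norm_nonneg z]) hN2
              linarith
          · refine (sum_le_sum (g := fun k : ℕ => (1 + ‖z‖) * (-(1 / ((k + 1 : ℕ) : ℝ)) -
              -(1 / (k : ℝ)))) fun k hk => ?_).trans ?_
            · rw [mem_Ico] at hk
              have hk0 : (0 : ℝ) < k := by
                have : (N : ℝ) ≤ k := Nat.cast_le.2 hk.1
                linarith [norm_nonneg z]
              rw [ha]
              refine (norm_digammaTerm_le k (by linarith)).2.trans ?_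
              rw [div_eq_mul_one_div]
              refine mul_le_mul_of_nonneg_left ?_ (by positivity)
              push_cast
              rw [show -(1 / ((k : ℝ) + 1)) - -(1 / k) = 1 / (k * (k + 1)) by field_simp; ring]
              exact one_div_le_one_div_of_le (by positivity) (by nlinarith)
            · rw [← mul_sum, sum_Ico_sub (fun k : ℕ => -(1 / (k : ℝ))) (le_max_right M N)]
              have h2 : 0 ≤ 1 / ((max M N : ℕ) : ℝ) := by positivity
              calc (1 + ‖z‖) * (-(1 / ((max M N : ℕ) : ℝ)) - -(1 / (N : ℝ)))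
                  ≤ (1 + ‖z‖) * (1 / (N : ℝ)) :=
                    mul_le_mul_of_nonneg_left (by linarith) (by positivity)
                _ ≤ 1 := by
                    rw [mul_one_div, div_le_one (by linarith [norm_nonneg z])]
                    linarith
  have hle : ‖deriv Complex.Gamma z / Complex.Gamma z + z⁻¹‖ ≤
      3 * (1 + Real.log (‖z‖ + 2)) + 1 :=
    le_of_tendsto' h.tendsto_sum_nat.norm hpart
  have hzinv : ‖z⁻¹‖ ≤ 4 := by
    rw [norm_inv]
    exact (inv_anti₀ (by norm_num) (hz.trans (re_le_norm z))).trans (by norm_num)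
  have := norm_sub_le (deriv Complex.Gamma z / Complex.Gamma z + z⁻¹) z⁻¹
  rw [add_sub_cancel_right] at this
  linarith

/-- The regular part of the logarithmic derivative of `s Γℝ s`. -/
def gammaReg (s : ℂ) : ℂ :=
  -((Real.log Real.pi : ℝ) : ℂ) / 2 +
    deriv Complex.Gamma (s / 2 + 1) / Complex.Gamma (s / 2 + 1) / 2

theorem gammaReg_eq {s : ℂ} (hs : 0 < s.re) :
    gammaReg s = s⁻¹ + deriv Gammaℝ s / Gammaℝ s := by
  have h2 : 0 < (s / 2).re := by simpa using hs
  have h0 : s / 2 ≠ 0 := fun h => by simp [h] at h2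
  have hne : ∀ m : ℕ, s / 2 ≠ -(m : ℂ) := fun m h => by
    rw [h] at h2
    simp at h2
    linarith [(Nat.cast_nonneg m : (0 : ℝ) ≤ m)]
  have e1 : deriv Complex.Gamma (s / 2 + 1) / Complex.Gamma (s / 2 + 1) =
      (s / 2)⁻¹ + deriv Complex.Gamma (s / 2) / Complex.Gamma (s / 2) := by
    have := Complex.digamma_apply_add_one (s / 2) hne
    rw [Complex.digamma_def, logDeriv_apply, logDeriv_apply] at this
    rw [this, add_comm]
  have e2 : deriv Gammaℝ s / Gammaℝ s = -((Real.log Real.pi : ℝ) : ℂ) / 2 +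
      deriv Complex.Gamma (s / 2) / Complex.Gamma (s / 2) / 2 := by
    have hd : HasDerivAt logGammaReal (-((Real.log Real.pi : ℝ) : ℂ) / 2 +
        deriv Complex.Gamma (s / 2) / Complex.Gamma (s / 2) / 2) s := by
      refine (((((hasDerivAt_id' s).div_const 2).neg).mul_const _).add
        ((hasDerivAt_logGam h2).comp s ((hasDerivAt_id' s).div_const 2))).congr_deriv ?_
      ring
    exact ((hasDerivAt_logGammaReal hs).unique hd)
  have hs0 : s ≠ 0 := fun h => by simp [h] at hs
  rw [gammaReg, e1, e2]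
  field_simp
  ring

theorem differentiableAt_gammaReg {s : ℂ} (hs : -2 < s.re) : DifferentiableAt ℂ gammaReg s := by
  have h2 : 0 < (s / 2 + 1).re := by simp; linarith
  have hV : IsOpen {u : ℂ | 0 < u.re} := isOpen_lt continuous_const continuous_re
  have hG : DifferentiableOn ℂ Complex.Gamma {u : ℂ | 0 < u.re} := fun u hu => by
    refine (Complex.differentiableAt_Gamma _ fun m h => ?_).differentiableWithinAt
    simp only [Set.mem_ofPred_eq, h, neg_re, natCast_re] at hu
    linarith [(Nat.cast_nonneg m : (0 : ℝ) ≤ m)]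
  have hquot : DifferentiableAt ℂ (fun u => deriv Complex.Gamma u / Complex.Gamma u) (s / 2 + 1) :=
    ((hG.deriv hV).differentiableAt (hV.mem_nhds h2)).div (hG.differentiableAt (hV.mem_nhds h2))
      (Complex.Gamma_ne_zero_of_re_pos h2)
  exact ((DifferentiableAt.fun_comp' (g := fun u => deriv Complex.Gamma u / Complex.Gamma u)
    (f := fun v : ℂ => v / 2 + 1) s hquot (by fun_prop)).div_const 2).const_add _

theorem norm_gammaReg_le {s : ℂ} (hs : -1 / 2 ≤ s.re) (hs2 : s.re ≤ 2) :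
    ‖gammaReg s‖ ≤ 8 + 2 * Real.log (|s.im| + 100) := by
  have h2 : 1 / 4 ≤ (s / 2 + 1).re := by simp; linarith
  have hn : ‖s / 2 + 1‖ + 2 ≤ |s.im| + 100 := by
    have h3 := norm_le_abs_re_add_abs_im (s / 2 + 1)
    have h4 : |(s / 2 + 1).re| ≤ 3 := by
      rw [abs_le]
      constructor
      · linarith
      · simp; linarith
    have h5 : |(s / 2 + 1).im| ≤ |s.im| := by
      simp [abs_div]
    linarith
  have hl := Real.log_le_log (by positivity) hn
  have hπ : |Real.log Real.pi| ≤ 4 := by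
    rw [abs_of_nonneg (Real.log_nonneg (by linarith [Real.pi_gt_three]))]
    exact (Real.log_le_self Real.pi_pos.le).trans Real.pi_le_four
  rw [gammaReg]
  refine (norm_add_le _ _).trans ?_
  rw [norm_div _ (2 : ℂ), norm_div _ (2 : ℂ), norm_neg, Complex.norm_real, Real.norm_eq_abs,
    RCLike.norm_ofNat]
  have h6 := norm_digamma_le h2
  have hl0 : 0 ≤ Real.log (|s.im| + 100) := Real.log_nonneg (by linarith [abs_nonneg s.im])
  linarith

end FA.ExplicitFormula

end
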