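import Fermat.Agent.ExplicitFormula.Residue
import Fermat.Agent.ExplicitFormula.Zeros
import Fermat.Agent.VonKoch.Perron
import Fermat.Agent.ZeroFreeRegion.ErrorTerm

/-!
# The explicit formula

`ψ₁ x = x² / 2 - ∑ x ^ (ρ + 1) / (ρ (ρ + 1)) - x ζ'/ζ (0) + O (√x)`: the residues of
`x ^ (s + 1) / (s (s + 1)) · (-ζ'/ζ s)` on `[-1/2, 3/2] × [-T, T]`, with `T → ∞` away from the
ordinates.
-/

set_option autoImplicit false

noncomputable section

namespace FA.ExplicitFormula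

open Complex Filter Topology MeasureTheory Set FA.RiemannMangoldt FA.ZeroFree
open scoped Real ArithmeticFunction.vonMangoldt

/-- `x ^ (s + 1) / (s + 1)`. -/
def powTerm (x : ℝ) (s : ℂ) : ℂ := (x : ℂ) ^ (s + 1) / (s + 1)

/-- The integrand. -/
def integrand (x : ℝ) (s : ℂ) : ℂ := (x : ℂ) ^ (s + 1) / (s * (s + 1)) * negLogDeriv s

/-- The summand of the explicit formula at `ρ`, with multiplicity; `0` off the zeros. -/
def zeroTerm (x : ℝ) (ρ : ℂ) : ℂ := (zeroWeight ρ : ℂ) * ((x : ℂ) ^ (ρ + 1) / (ρ * (ρ + 1)))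

theorem zeroWeight_eq_zero {ρ : ℂ} (hρ : xiFn ρ ≠ 0) : zeroWeight ρ = 0 := by
  simp [zeroWeight, analyticOrderNatAt, analyticOrderAt_eq_zero.2 (Or.inr hρ)]

theorem zeroTerm_eq_zero {ρ : ℂ} (x : ℝ) (hρ : xiFn ρ ≠ 0) : zeroTerm x ρ = 0 := by
  simp [zeroTerm, zeroWeight_eq_zero hρ]

theorem xiLogDeriv_factor {Z : Multiset ℂ} {h : ℂ → ℂ} (hh : Differentiable ℂ h)
    (he : ∀ s, xiFn s = rootProd Z s * h s) {s : ℂ} (hz : ∀ ρ ∈ Z, s ≠ ρ) (hne : h s ≠ 0) :
    xiLogDeriv s = (Z.map fun ρ => (s - ρ)⁻¹).sum + deriv h s / h s := by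
  have hd : deriv xiFn s = rootProd Z s * (Z.map fun ρ => (s - ρ)⁻¹).sum * h s +
      rootProd Z s * deriv h s := by
    rw [show xiFn = fun w => rootProd Z w * h w from funext he]
    exact ((hasDerivAt_rootProd hz).mul (hh s).hasDerivAt).deriv
  have n1 := rootProd_ne_zero hz
  rw [xiLogDeriv, hd, he s]
  field_simp

theorem boxInt_sub {F G : ℂ → ℂ} {a b T : ℝ} (hF : ∀ s ∈ boxEdges a b T, ContinuousAt F s)
    (hG : ∀ s ∈ boxEdges a b T, ContinuousAt G s) :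
    boxInt (fun s => F s - G s) a b T = boxInt F a b T - boxInt G a b T := by
  have h := boxInt_add (G := fun s => -1 * G s) hF fun s hs => continuousAt_const.mul (hG s hs)
  rw [boxInt_const_mul] at h
  simp only [neg_mul, one_mul, ← sub_eq_add_neg] at h
  exact h

theorem boxInt_multiset_sum {f : ℂ → ℂ → ℂ} {a b T : ℝ} (Z : Multiset ℂ)
    (hc : ∀ ρ ∈ Z, ∀ s ∈ boxEdges a b T, ContinuousAt (f ρ) s) :
    (∀ s ∈ boxEdges a b T, ContinuousAt (fun s => (Z.map fun ρ => f ρ s).sum) s) ∧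
      boxInt (fun s => (Z.map fun ρ => f ρ s).sum) a b T =
        (Z.map fun ρ => boxInt (f ρ) a b T).sum := by
  induction Z using Multiset.induction_on with
  | empty =>
    refine ⟨fun s _ => ?_, by simp [boxInt]⟩
    simp only [Multiset.map_zero, Multiset.sum_zero]
    exact continuousAt_const
  | cons ρ Z ih =>
    obtain ⟨h1, h2⟩ := ih fun r hr => hc r (Multiset.mem_cons_of_mem hr)
    have h3 := hc ρ (Multiset.mem_cons_self _ _)
    simp only [Multiset.map_cons, Multiset.sum_cons]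
    exact ⟨fun s hs => (h3 s hs).add (h1 s hs), by rw [boxInt_add h3 h1, h2]⟩

/-- **The residues.** -/
theorem boxInt_integrand {x T : ℝ} (hx : 0 < x) (hT : 0 < T)
    (hord : ∀ ρ, xiFn ρ = 0 → |ρ.im| ≠ T) :
    boxInt (integrand x) (-1 / 2) (3 / 2) T = 2 * π * I *
      ((x : ℂ) * negLogDeriv 0 + (x : ℂ) ^ 2 / 2 - ∑ ρ ∈ zerosUpTo T, zeroTerm x ρ) := by
  obtain ⟨Z, h, hh, he, hZ, hne, hcount⟩ := exists_xi_factor (R := T + 5) (by linarith)
  have hball : ∀ s : ℂ, s.re ∈ Icc (-1 / 2 : ℝ) (3 / 2) → s.im ∈ Icc (-T) T →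
      s ∈ Metric.closedBall (2 : ℂ) (T + 5) := fun s h1 h2 => by
    rw [Metric.mem_closedBall, dist_eq_norm]
    refine (norm_le_abs_re_add_abs_im _).trans ?_
    simp only [sub_re, sub_im, re_ofNat, im_ofNat, sub_zero]
    rw [abs_of_neg (by linarith [h1.2])]
    linarith [h1.1, abs_le.2 h2]
  have hx' : (x : ℂ) ≠ 0 := ofReal_ne_zero.2 hx.ne'
  obtain ⟨U₀, hU₀⟩ : ∃ U : Set ℂ, U = {s | -1 < s.re} := ⟨_, rfl⟩
  have hU₀o : IsOpen U₀ := hU₀ ▸ isOpen_lt continuous_const continuous_re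
  obtain ⟨U, hU⟩ : ∃ U : Set ℂ, U = U₀ ∩ {s | h s ≠ 0} := ⟨_, rfl⟩
  have hUo : IsOpen U := hU ▸ hU₀o.inter (isOpen_ne_fun hh.continuous continuous_const)
  have hbox₀ : ∀ s : ℂ, s.re ∈ Icc (-1 / 2 : ℝ) (3 / 2) → s.im ∈ Icc (-T) T → s ∈ U₀ :=
    fun s h1 _ => by rw [hU₀]; show -1 < s.re; linarith [h1.1]
  have hbox : ∀ s : ℂ, s.re ∈ Icc (-1 / 2 : ℝ) (3 / 2) → s.im ∈ Icc (-T) T → s ∈ U :=
    fun s h1 h2 => hU ▸ ⟨hbox₀ s h1 h2, hne s (hball s h1 h2)⟩
  have hphi : DifferentiableOn ℂ (powTerm x) U₀ := fun s hs => by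
    rw [hU₀] at hs
    refine (((differentiableAt_id.add_const 1).const_cpow (Or.inl hx')).div
      (differentiableAt_id.add_const 1) fun h0 => ?_).differentiableWithinAt
    have h1 := congrArg Complex.re h0
    simp at h1
    linarith [show -1 < s.re from hs]
  obtain ⟨G, hG⟩ : ∃ G : ℂ → ℂ,
      G = fun s => powTerm x s * (-(deriv h s / h s) + gammaReg s) := ⟨_, rfl⟩
  have hGd : DifferentiableOn ℂ G U := fun s hs => by
    rw [hU] at hs
    have hs' : -1 < s.re := by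
      have := hs.1
      rw [hU₀] at this
      exact this
    rw [hG]
    exact (((hphi s hs.1).differentiableAt (hU₀o.mem_nhds hs.1)).mul
      (((hh.analyticAt s).deriv.differentiableAt.div (hh s) hs.2).neg.add
        (differentiableAt_gammaReg (by linarith)))).differentiableWithinAt
  have hedge : ∀ s ∈ boxEdges (-1 / 2) (3 / 2) T,
      s.re ∈ Icc (-1 / 2 : ℝ) (3 / 2) ∧ s.im ∈ Icc (-T) T := fun s hs => by
    obtain ⟨h1, h2, -⟩ := hs
    rw [uIcc_of_le (by norm_num)] at h1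
    rw [uIcc_of_le (by linarith)] at h2
    exact ⟨h1, h2⟩
  have h0T : |(0 : ℂ).im| ≠ T := by simpa using hT.ne
  have h1T : |(1 : ℂ).im| ≠ T := by simpa using hT.ne
  have hin0 : (-1 / 2 : ℝ) < (0 : ℂ).re ∧ (0 : ℂ).re < 3 / 2 := by norm_num
  have hin1 : (-1 / 2 : ℝ) < (1 : ℂ).re ∧ (1 : ℂ).re < 3 / 2 := by norm_num
  have hinZ : ∀ ρ ∈ Z, (-1 / 2 : ℝ) < ρ.re ∧ ρ.re < 3 / 2 := fun ρ hρ => by
    obtain ⟨a, b⟩ := xiFn_zero_strip (hZ ρ hρ)
    exact ⟨by linarith, by linarith⟩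
  obtain ⟨P, hP⟩ : ∃ P : ℂ → ℂ → ℂ, P = fun a s => powTerm x s / (s - a) := ⟨_, rfl⟩
  have hPc : ∀ a : ℂ, (-1 / 2 : ℝ) < a.re ∧ a.re < 3 / 2 → |a.im| ≠ T →
      ∀ s ∈ boxEdges (-1 / 2) (3 / 2) T, ContinuousAt (P a) s := fun a ha hi s hs => by
    obtain ⟨h1, h2⟩ := hedge s hs
    rw [hP]
    exact ((hphi.differentiableAt (hU₀o.mem_nhds (hbox₀ s h1 h2))).continuousAt).div
      (continuousAt_id.sub continuousAt_const)
      (sub_ne_zero.2 (interior_not_edge ha.1 ha.2 hi hT.le hs))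
  have hPval : ∀ a : ℂ, (-1 / 2 : ℝ) < a.re ∧ a.re < 3 / 2 → |a.im| ≠ T →
      boxInt (P a) (-1 / 2) (3 / 2) T = if |a.im| < T then 2 * π * I * powTerm x a else 0 :=
    fun a ha hi => by
      rw [hP]
      exact boxInt_residue hU₀o hphi hbox₀ hT.le ha.1 ha.2 hi
  have hGc : ∀ s ∈ boxEdges (-1 / 2) (3 / 2) T, ContinuousAt (fun s => G s / (s - 0)) s :=
    fun s hs => ((hGd.differentiableAt (hUo.mem_nhds
      (hbox s (hedge s hs).1 (hedge s hs).2))).continuousAt).div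
        (continuousAt_id.sub continuousAt_const)
        (sub_ne_zero.2 (interior_not_edge hin0.1 hin0.2 h0T hT.le hs))
  have hc10 : ∀ s ∈ boxEdges (-1 / 2) (3 / 2) T, ContinuousAt (fun s => P 1 s - P 0 s) s :=
    fun s hs => (hPc 1 hin1 h1T s hs).sub (hPc 0 hin0 h0T s hs)
  obtain ⟨hZc, hZsum⟩ := boxInt_multiset_sum (f := fun ρ s => -ρ⁻¹ * (P ρ s - P 0 s))
    (a := -1 / 2) (b := 3 / 2) (T := T) Z fun ρ hρ s hs => continuousAt_const.mul
      ((hPc ρ (hinZ ρ hρ) (hord ρ (hZ ρ hρ)) s hs).sub (hPc 0 hin0 h0T s hs))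
  have hzne : ∀ s ∈ boxEdges (-1 / 2) (3 / 2) T, ∀ ρ ∈ Z, s ≠ ρ := fun s hs ρ hρ =>
    interior_not_edge (hinZ ρ hρ).1 (hinZ ρ hρ).2 (hord ρ (hZ ρ hρ)) hT.le hs
  rw [boxInt_congr (G := fun s => G s / (s - 0) +
      ((P 1 s - P 0 s) + (Z.map fun ρ => -ρ⁻¹ * (P ρ s - P 0 s)).sum)) fun s hs => ?_,
    boxInt_add (F := fun s => G s / (s - 0))
      (G := fun s => (P 1 s - P 0 s) + (Z.map fun ρ => -ρ⁻¹ * (P ρ s - P 0 s)).sum) hGc
      (fun s hs => (hc10 s hs).add (hZc s hs)),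
    boxInt_add (F := fun s => P 1 s - P 0 s)
      (G := fun s => (Z.map fun ρ => -ρ⁻¹ * (P ρ s - P 0 s)).sum) hc10 hZc,
    boxInt_sub (hPc 1 hin1 h1T) (hPc 0 hin0 h0T), hZsum]
  · have h0lt : |(0 : ℂ).im| < T := by simpa using hT
    have h1lt : |(1 : ℂ).im| < T := by simpa using hT
    have hG0 := boxInt_residue hUo hGd hbox hT.le (ρ := 0) hin0.1 hin0.2 h0T
    rw [hG0, hPval 1 hin1 h1T, hPval 0 hin0 h0T, if_pos h0lt, if_pos h1lt,
      if_pos h0lt]
    have hmap : (Z.map fun ρ => boxInt (fun s => -ρ⁻¹ * (P ρ s - P 0 s)) (-1 / 2) (3 / 2) T) =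
        Z.map fun ρ => 2 * π * I * (x : ℂ) * ρ⁻¹ + -(2 * π * I) *
          (if |ρ.im| < T then (x : ℂ) ^ (ρ + 1) / (ρ * (ρ + 1)) else 0) := by
      refine Multiset.map_congr rfl fun ρ hρ => ?_
      rw [boxInt_const_mul, boxInt_sub (hPc ρ (hinZ ρ hρ) (hord ρ (hZ ρ hρ)))
        (hPc 0 hin0 h0T), hPval ρ (hinZ ρ hρ) (hord ρ (hZ ρ hρ)), hPval 0 hin0 h0T,
        if_pos h0lt, show powTerm x 0 = (x : ℂ) by simp [powTerm]]
      split_ifs
      · simp only [powTerm, div_eq_mul_inv, mul_inv]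
        ring
      · ring
    rw [hmap, Multiset.sum_map_add, Multiset.sum_map_mul_left, Multiset.sum_map_mul_left]
    have hsum : (Z.map fun ρ =>
        if |ρ.im| < T then (x : ℂ) ^ (ρ + 1) / (ρ * (ρ + 1)) else 0).sum =
        ∑ ρ ∈ zerosUpTo T, zeroTerm x ρ := by
      classical
      rw [Finset.sum_multiset_map_count]
      simp only [smul_ite, smul_zero]
      rw [← Finset.sum_filter]
      have hstrip : ∀ ρ : ℂ, xiFn ρ = 0 → |ρ.im| ≤ T →
          ρ ∈ Metric.closedBall (2 : ℂ) (T + 5) := fun ρ hρ hi => by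
        obtain ⟨a, b⟩ := xiFn_zero_strip hρ
        exact hball ρ ⟨by linarith, by linarith⟩ (abs_le.1 hi)
      refine Finset.sum_congr ?_ fun ρ hρ => ?_
      · ext ρ
        rw [Finset.mem_filter, Multiset.mem_toFinset, mem_zerosUpTo]
        refine ⟨fun hρ => ⟨hZ ρ hρ.1, hρ.2.le⟩, fun hρ => ⟨?_, lt_of_le_of_ne hρ.2 (hord ρ hρ.1)⟩⟩
        rw [← Multiset.one_le_count_iff_mem, ← hcount ρ (hstrip ρ hρ.1 hρ.2)]
        exact one_le_zeroWeight hρ.1
      · rw [mem_zerosUpTo] at hρ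
        rw [← hcount ρ (hstrip ρ hρ.1 hρ.2), nsmul_eq_mul, zeroTerm, zeroWeight]
    have hN : negLogDeriv 0 = (Z.map fun ρ => ρ⁻¹).sum - deriv h 0 / h 0 - 1 + gammaReg 0 := by
      rw [negLogDeriv, xiLogDeriv_factor hh he (fun ρ hρ h0 => ?_)
        (hne 0 (hball 0 (by norm_num) (by simp [hT.le])))]
      · simp only [zero_sub, inv_neg, Multiset.sum_map_neg, inv_one]
        ring
      · exact xiFn_real_ne_zero 0 (by simpa [← h0] using hZ ρ hρ)
    rw [hsum, hN, hG]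
    simp only [powTerm, show ((1 : ℂ) + 1) = 2 by norm_num, zero_add, cpow_one, cpow_two]
    ring
  · obtain ⟨h1, h2⟩ := hedge s hs
    have hs0 : s ≠ 0 := interior_not_edge hin0.1 hin0.2 h0T hT.le hs
    have hs1 : s - 1 ≠ 0 := sub_ne_zero.2 (interior_not_edge hin1.1 hin1.2 h1T hT.le hs)
    have hm : (Z.map fun ρ => -ρ⁻¹ * (P ρ s - P 0 s)) =
        Z.map fun ρ => -(powTerm x s / s) * (s - ρ)⁻¹ := by
      refine Multiset.map_congr rfl fun ρ hρ => ?_
      have hρ0 : ρ ≠ 0 := fun h0 => xiFn_real_ne_zero 0 (by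
        simpa [h0] using hZ ρ hρ)
      have := sub_ne_zero.2 (hzne s hs ρ hρ)
      rw [hP]
      simp only [sub_zero]
      field_simp
      ring
    dsimp only
    rw [hm, Multiset.sum_map_mul_left, integrand, negLogDeriv,
      xiLogDeriv_factor hh he (hzne s hs) (hne s (hball s h1 h2)), hG, hP]
    simp only [sub_zero, powTerm]
    have hs2 : s + 1 ≠ 0 := fun h0 => by
      have := congrArg Complex.re h0
      simp at this
      linarith [h1.1]
    field_simp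
    ring

theorem differentiableAt_negLogDeriv {s : ℂ} (hs : -2 < s.re) (hs1 : s ≠ 1)
    (hx : xiFn s ≠ 0) : DifferentiableAt ℂ negLogDeriv s := by
  have h1 : DifferentiableAt ℂ (deriv xiFn) s :=
    (differentiable_xiFn.analyticAt s).deriv.differentiableAt
  have h2 : DifferentiableAt ℂ xiFn s := differentiable_xiFn s
  have h3 : s - 1 ≠ 0 := sub_ne_zero.2 hs1
  have h4 : DifferentiableAt ℂ gammaReg s := differentiableAt_gammaReg hs
  unfold negLogDeriv xiLogDeriv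
  fun_prop (disch := assumption)

theorem negLogDeriv_zero : negLogDeriv 0 = -(deriv riemannZeta 0 / riemannZeta 0) := by
  have hz : riemannZeta 0 ≠ 0 := by rw [riemannZeta_zero]; norm_num
  have han : AnalyticAt ℂ riemannZeta 0 :=
    DifferentiableOn.analyticAt (s := {(1 : ℂ)}ᶜ)
      (fun z hz => (differentiableAt_riemannZeta hz).differentiableWithinAt)
      (isOpen_compl_singleton.mem_nhds (by simp))
  have hlim : Tendsto (fun t : ℝ => (t : ℂ)) (𝓝[>] 0) (𝓝 0) := by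
    simpa using (continuous_ofReal.tendsto 0).mono_left nhdsWithin_le_nhds
  have h1 := ((differentiableAt_negLogDeriv (s := 0) (by norm_num) zero_ne_one
    (by simpa using xiFn_real_ne_zero 0)).continuousAt.tendsto).comp hlim
  have h2 := (((han.deriv.continuousAt.div han.continuousAt hz).neg).tendsto).comp hlim
  refine tendsto_nhds_unique_of_eventuallyEq h1 h2 ?_
  filter_upwards [self_mem_nhdsWithin, hlim.eventually (han.continuousAt.eventually_ne hz),
    hlim.eventually (isOpen_ne.mem_nhds (show (0 : ℂ) ≠ 1 by norm_num))] with t ht hne ht1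
  exact negLogDeriv_eq (by simpa using ht) ht1 hne

theorem continuous_integrand_line {x σ : ℝ} (hx : 0 < x) (hσ : σ = -1 / 2 ∨ σ = 3 / 2) :
    Continuous fun y : ℝ => integrand x ((σ : ℂ) + y * I) := by
  refine continuous_iff_continuousAt.2 fun y => ContinuousAt.comp' (g := integrand x)
    (f := fun v : ℝ => (σ : ℂ) + v * I) ?_ (by fun_prop)
  obtain ⟨s, hs⟩ : ∃ s : ℂ, s = (σ : ℂ) + y * I := ⟨_, rfl⟩
  rw [← hs]
  have hre : s.re = σ := by simp [hs]
  have h2 : -2 < s.re ∧ s.re ≠ 0 ∧ s.re ≠ 1 ∧ s.re + 1 ≠ 0 ∧ (s.re < 0 ∨ 1 ≤ s.re) := by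
    rcases hσ with h | h <;> rw [hre, h] <;> norm_num
  have hxi : xiFn s ≠ 0 := fun h => by
    obtain ⟨a, b⟩ := xiFn_zero_strip h
    rcases h2.2.2.2.2 with h | h <;> linarith
  exact (((continuousAt_id.add continuousAt_const).const_cpow
    (Or.inl (ofReal_ne_zero.2 hx.ne'))).div (continuousAt_id.mul
      (continuousAt_id.add continuousAt_const))
    (mul_ne_zero (fun h => h2.2.1 (by simpa using congrArg Complex.re h))
      fun h => h2.2.2.2.1 (by simpa using congrArg Complex.re h))).mul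
    (differentiableAt_negLogDeriv h2.1 (fun h => h2.2.2.1 (by rw [h]; simp)) hxi).continuousAt

theorem norm_kernel_eq {x : ℝ} (hx : 0 < x) (s : ℂ) :
    ‖(x : ℂ) ^ (s + 1) / (s * (s + 1))‖ = x ^ (s.re + 1) / (‖s‖ * ‖s + 1‖) := by
  rw [norm_div, norm_mul, norm_cpow_eq_rpow_re_of_pos hx, add_re, one_re]

/-- The line `re s = 3/2`. -/
theorem integral_right {x : ℝ} (hx : 0 < x) :
    Integrable (fun y : ℝ => integrand x (((3 / 2 : ℝ) : ℂ) + y * I)) ∧
      ∫ y : ℝ, integrand x (((3 / 2 : ℝ) : ℂ) + y * I) = 2 * π * (psiOne x : ℂ) := by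
  obtain ⟨C, hC, hreal⟩ := FA.DLVP.exists_real_bound
  have hS : ∀ s : ℂ, 1 < s.re → LSeriesSummable (fun n => ((Λ n : ℝ) : ℂ)) s ∧
      LSeries (fun n => ((Λ n : ℝ) : ℂ)) s = negLogDeriv s := fun s hs => by
    refine ⟨ArithmeticFunction.LSeriesSummable_vonMangoldt hs, ?_⟩
    rw [ArithmeticFunction.LSeries_vonMangoldt_eq_deriv_riemannZeta_div hs, negLogDeriv_eq
      (by linarith) (fun h => by rw [h] at hs; simp at hs)
      (riemannZeta_ne_zero_of_one_le_re hs.le), neg_div]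
  have hfun : ∀ y : ℝ, integrand x (((3 / 2 : ℝ) : ℂ) + y * I) =
      (x : ℂ) * FA.VonKoch.momentFn negLogDeriv x (((3 / 2 : ℝ) : ℂ) + y * I) := fun y => by
    rw [integrand, FA.VonKoch.momentFn, cpow_add _ _ (ofReal_ne_zero.2 hx.ne'), cpow_one]
    ring
  constructor
  · refine (integrable_decay.const_mul (x ^ (3 / 2 + 1 : ℝ) * 4 * (2 + C))).mono'
      (continuous_integrand_line hx (Or.inr rfl)).aestronglyMeasurable
      (Eventually.of_forall fun y => ?_)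
    have hre : (((3 / 2 : ℝ) : ℂ) + y * I).re = 3 / 2 := by simp
    rw [integrand, norm_mul, norm_kernel_eq hx, hre]
    have hk := (norm_kernel_inv_le (σ := 3 / 2) (by norm_num) y).trans
      ((div_eq_mul_one_div _ _).trans_le (mul_le_mul_of_nonneg_left (inv_le_decay y) (by norm_num)))
    rw [norm_mul] at hk
    have hn : ‖negLogDeriv (((3 / 2 : ℝ) : ℂ) + y * I)‖ ≤ 2 + C := by
      rw [negLogDeriv_eq (by rw [hre]; norm_num)
        (fun h => by have := congrArg Complex.re h; rw [hre] at this; norm_num at this)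
        (riemannZeta_ne_zero_of_one_le_re (by rw [hre]; norm_num)), norm_neg]
      refine (FA.DLVP.norm_logDeriv_zeta_le_real (σ := 1 + 1 / 2) (by norm_num)
        (by rw [hre]; norm_num)).trans ?_
      exact (hreal (1 / 2) (by norm_num) (by norm_num)).trans (by norm_num)
    calc x ^ (3 / 2 + 1 : ℝ) / (‖((3 / 2 : ℝ) : ℂ) + y * I‖ * ‖((3 / 2 : ℝ) : ℂ) + y * I + 1‖) *
          ‖negLogDeriv (((3 / 2 : ℝ) : ℂ) + y * I)‖
        ≤ x ^ (3 / 2 + 1 : ℝ) * (4 * decay y) * (2 + C) := by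
          rw [div_eq_mul_one_div]
          refine mul_le_mul (mul_le_mul_of_nonneg_left hk (by positivity)) hn (norm_nonneg _) ?_
          have := decay_pos y
          positivity
      _ = _ := by ring
  · have h := FA.VonKoch.firstMoment_eq hS hx (show (1 : ℝ) < 3 / 2 by norm_num)
    have e : FA.VonKoch.firstMoment (fun n => ((Λ n : ℝ) : ℂ)) x = (psiOne x : ℂ) := by
      rw [FA.VonKoch.firstMoment, psiOne]
      push_cast
      rfl
    rw [e] at h
    obtain ⟨J, hJ⟩ : ∃ J, J = ∫ y : ℝ,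
        FA.VonKoch.momentFn negLogDeriv x (((3 / 2 : ℝ) : ℂ) + y * I) := ⟨_, rfl⟩
    rw [← hJ] at h
    rw [funext hfun, integral_const_mul, ← hJ, h, Complex.real_smul]
    push_cast
    field_simp

/-- The line `re s = -1/2` is `O (√x)`. -/
theorem exists_integral_left : ∃ C, 0 ≤ C ∧ ∀ x : ℝ, 0 < x →
    Integrable (fun y : ℝ => integrand x (((-1 / 2 : ℝ) : ℂ) + y * I)) ∧
      ‖∫ y : ℝ, integrand x (((-1 / 2 : ℝ) : ℂ) + y * I)‖ ≤ C * √x := by
  obtain ⟨C, hC, hb⟩ := exists_left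
  obtain ⟨K, hK1, hK⟩ := ell_pow_le
  have hJ : 0 ≤ ∫ y, decay y := integral_nonneg fun y => (decay_pos y).le
  refine ⟨4 * C * K * ∫ y, decay y, by positivity, fun x hx => ?_⟩
  have hpt : ∀ y : ℝ, ‖integrand x (((-1 / 2 : ℝ) : ℂ) + y * I)‖ ≤
      4 * C * K * √x * decay y := fun y => by
    obtain ⟨s, hs⟩ : ∃ s : ℂ, s = ((-1 / 2 : ℝ) : ℂ) + y * I := ⟨_, rfl⟩
    rw [← hs]
    have hre : s.re = -1 / 2 := by simp [hs]
    have him : s.im = y := by simp [hs]
    have e1 : ‖s‖ ^ 2 = 1 / 4 + y ^ 2 := by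
      rw [Complex.sq_norm, Complex.normSq_apply, hre, him]; ring
    have e2 : ‖s + 1‖ ^ 2 = 1 / 4 + y ^ 2 := by
      rw [Complex.sq_norm, Complex.normSq_apply, add_re, add_im, hre, him]; simp; ring
    have e3 : ‖s + 1‖ = ‖s‖ :=
      (sq_eq_sq₀ (norm_nonneg _) (norm_nonneg _)).1 (e2.trans e1.symm)
    rw [integrand, norm_mul, norm_kernel_eq hx, hre, e3, ← sq, e1, Real.sqrt_eq_rpow,
      show (-1 / 2 + 1 : ℝ) = 1 / 2 by norm_num]
    have hl := four_le_ell y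
    have h9 : ell y ≤ K * (1 + y ^ 2) ^ (1 / 4 : ℝ) :=
      (le_self_pow₀ (by linarith) (by norm_num)).trans (hK y)
    have hn : ‖negLogDeriv s‖ ≤ C * (K * (1 + y ^ 2) ^ (1 / 4 : ℝ)) :=
      hs ▸ (hb y).trans (mul_le_mul_of_nonneg_left h9 hC)
    have hd : decay y = (1 + y ^ 2) ^ (1 / 4 : ℝ) / (1 + y ^ 2) := by
      rw [decay, eq_div_iff (by positivity), ← Real.rpow_add_one (by positivity)]
      norm_num
    rw [hd]
    calc x ^ (1 / 2 : ℝ) / (1 / 4 + y ^ 2) * ‖negLogDeriv s‖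
        ≤ x ^ (1 / 2 : ℝ) * (4 / (1 + y ^ 2)) * (C * (K * (1 + y ^ 2) ^ (1 / 4 : ℝ))) := by
          refine mul_le_mul ?_ hn (norm_nonneg _) (by positivity)
          rw [mul_div_assoc', div_le_div_iff₀ (by positivity) (by positivity)]
          have h0 : 0 ≤ x ^ (1 / 2 : ℝ) := Real.rpow_nonneg hx.le _
          nlinarith [mul_nonneg h0 (sq_nonneg y)]
      _ = _ := by ring
  refine ⟨(integrable_decay.const_mul (4 * C * K * √x)).mono'
    (continuous_integrand_line hx (Or.inl rfl)).aestronglyMeasurable (Eventually.of_forall hpt), ?_⟩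
  refine (norm_integral_le_of_norm_le (integrable_decay.const_mul (4 * C * K * √x))
    (Eventually.of_forall hpt)).trans (le_of_eq ?_)
  rw [integral_const_mul]
  ring

theorem exists_inv_im_le : ∃ c, 0 < c ∧ ∀ ρ : ℂ, xiFn ρ = 0 →
    1 / |ρ.im| ≤ c * (1 / (1 + |ρ.im|)) := by
  obtain ⟨c, hc, h⟩ := exists_ordinate_ge
  refine ⟨1 / c, by positivity, fun ρ hρ => ?_⟩
  rw [one_div_mul_one_div]
  exact one_div_le_one_div_of_le (by positivity) (h ρ hρ)

theorem norm_mul_add_one_ge {ρ : ℂ} (hρ : xiFn ρ = 0) : ρ.im ^ 2 ≤ ‖ρ * (ρ + 1)‖ := by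
  have h0 := (xiFn_zero_strip hρ).1
  rw [norm_mul, ← sq_abs, sq]
  refine mul_le_mul (abs_im_le_norm ρ) ?_ (abs_nonneg _) (norm_nonneg _)
  simpa using abs_im_le_norm (ρ + 1)

/-- `∑ w / (1 + |γ|)²` is bounded. -/
theorem exists_sq_sum : ∃ C, 0 ≤ C ∧ ∀ S : Finset ℂ,
    ∑ ρ ∈ S, zeroWeight ρ * (1 / (1 + |ρ.im|) ^ 2) ≤ C := by
  obtain ⟨C₁, h1, hhead⟩ := exists_sum_head
  obtain ⟨C₂, h2, htail⟩ := exists_sum_tail
  refine ⟨C₁ * ell 1 ^ 2 + C₂ * (ell 1 / 1), by have := ell_pos 1; positivity, fun S => ?_⟩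
  classical
  rw [← Finset.sum_filter_of_ne (p := fun ρ => xiFn ρ = 0) fun ρ _ hne => ?_,
    ← Finset.sum_filter_add_sum_filter_not (S.filter fun ρ => xiFn ρ = 0) fun ρ => |ρ.im| ≤ 1]
  · refine add_le_add ((Finset.sum_le_sum fun ρ _ => ?_).trans
      (hhead 1 _ zero_le_one fun ρ hρ => ?_)) (htail 1 _ le_rfl fun ρ hρ => ?_)
    · refine mul_le_mul_of_nonneg_left (one_div_le_one_div_of_le (by positivity) ?_)
        (Nat.cast_nonneg _)
      exact le_self_pow₀ (by linarith [abs_nonneg ρ.im]) two_ne_zero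
    · simp only [Finset.mem_filter] at hρ
      exact ⟨hρ.1.2, hρ.2⟩
    · simp only [Finset.mem_filter, not_le] at hρ
      exact ⟨hρ.1.2, hρ.2⟩
  · by_contra h
    exact hne (by simp [zeroWeight_eq_zero h])

theorem summable_norm_zeroTerm {x : ℝ} (hx : 0 < x) : Summable fun ρ => ‖zeroTerm x ρ‖ := by
  obtain ⟨c, hc, hinv⟩ := exists_inv_im_le
  obtain ⟨C, hC, hsum⟩ := exists_sq_sum
  refine summable_of_sum_le (c := (max x 1) ^ 2 * c ^ 2 * C) (fun ρ => norm_nonneg _) fun S => ?_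
  refine (Finset.sum_le_sum (g := fun ρ => (max x 1) ^ 2 * c ^ 2 *
    (zeroWeight ρ * (1 / (1 + |ρ.im|) ^ 2))) fun ρ _ => ?_).trans ?_
  · by_cases hρ : xiFn ρ = 0
    · obtain ⟨h0, h1⟩ := xiFn_zero_strip hρ
      rw [zeroTerm, norm_mul, Complex.norm_natCast, norm_div, norm_cpow_eq_rpow_re_of_pos hx,
        add_re, one_re]
      have hnum : x ^ (ρ.re + 1) ≤ max x 1 ^ 2 := by
        refine (Real.rpow_le_rpow hx.le (le_max_left x 1) (by linarith)).trans ?_
        rw [← Real.rpow_natCast]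
        exact Real.rpow_le_rpow_of_exponent_le (le_max_right _ _) (by push_cast; linarith)
      have hden : 1 / ‖ρ * (ρ + 1)‖ ≤ c ^ 2 * (1 / (1 + |ρ.im|) ^ 2) := by
        refine (one_div_le_one_div_of_le ?_ (norm_mul_add_one_ge hρ)).trans ?_
        · exact sq_pos_of_ne_zero (im_ne_zero_of_zero hρ)
        · rw [← sq_abs, ← one_div_pow, ← one_div_pow, ← mul_pow]
          exact pow_le_pow_left₀ (by positivity) (hinv ρ hρ) 2
      rw [div_eq_mul_one_div]
      calc (zeroWeight ρ : ℝ) * (x ^ (ρ.re + 1) * (1 / ‖ρ * (ρ + 1)‖))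
          ≤ zeroWeight ρ * (max x 1 ^ 2 * (c ^ 2 * (1 / (1 + |ρ.im|) ^ 2))) := by gcongr
        _ = _ := by ring
    · simp [zeroTerm_eq_zero x hρ, zeroWeight_eq_zero hρ]
  · rw [← Finset.mul_sum]
    exact mul_le_mul_of_nonneg_left (hsum S) (by positivity)

/-- The sides at height `±T`. -/
theorem exists_sides : ∃ T : ℕ → ℝ, (∀ m : ℕ, (m : ℝ) + 3 ≤ T m) ∧
    (∀ m ρ, xiFn ρ = 0 → |ρ.im| ≠ T m) ∧
    ∀ x : ℝ, 0 < x → ∀ e : ℝ, |e| = 1 →
      Tendsto (fun m => ∫ u in (-1 / 2 : ℝ)..3 / 2, integrand x ((u : ℂ) + ((e * T m : ℝ) : ℂ) * I))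
        atTop (𝓝 0) := by
  obtain ⟨C, hC, hb⟩ := exists_horizontal
  obtain ⟨K, hK1, hK⟩ := ell_pow_le
  obtain ⟨c, hc, hheight⟩ := exists_good_height
  choose T hT1 hT2 hgap using fun m : ℕ => hheight (m + 3)
  obtain ⟨d, hd⟩ : ∃ d, d = min c 1 := ⟨_, rfl⟩
  have hd0 : 0 < d := hd ▸ lt_min hc one_pos
  have hlow : ∀ m : ℕ, (m : ℝ) + 3 ≤ T m := fun m => le_trans (by push_cast; rfl) (hT1 m)
  refine ⟨T, hlow, fun m ρ hρ h => ?_, fun x hx e he => ?_⟩
  · have := hgap m ρ hρ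
    rw [h, sub_self, abs_zero] at this
    linarith [div_pos hc (ell_pos ((m + 3 : ℕ) : ℝ))]
  obtain ⟨B, hB⟩ : ∃ B, B = 4 * (max x 1) ^ (3 : ℕ) * C * K / d := ⟨_, rfl⟩
  have hpt : ∀ m, ‖∫ u in (-1 / 2 : ℝ)..3 / 2,
      integrand x ((u : ℂ) + ((e * T m : ℝ) : ℂ) * I)‖ ≤ B * decay (T m) := by
    intro m
    have hT3 : 3 ≤ T m := le_trans (by linarith [(Nat.cast_nonneg m : (0 : ℝ) ≤ m)]) (hlow m)
    have habs : |e * T m| = T m := by rw [abs_mul, he, one_mul, abs_of_pos (by linarith)]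
    refine (intervalIntegral.norm_integral_le_of_norm_le_const (C := B * decay (T m) / 2)
      fun u hu => ?_).trans (le_of_eq (by rw [show |(3 / 2 : ℝ) - -1 / 2| = 2 by norm_num]; ring))
    rw [uIoc_of_le (by norm_num)] at hu
    obtain ⟨s, hs⟩ : ∃ s : ℂ, s = (u : ℂ) + ((e * T m : ℝ) : ℂ) * I := ⟨_, rfl⟩
    rw [← hs, integrand, norm_mul, norm_kernel_eq hx]
    have hre : s.re = u := by simp [hs]
    have him : |s.im| = T m := by rw [← habs]; simp [hs]
    have hδ : d / ell ((m + 3 : ℕ) : ℝ) ≤ 1 := by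
      rw [div_le_one (ell_pos _)]
      linarith [four_le_ell ((m + 3 : ℕ) : ℝ), hd ▸ min_le_right c 1]
    have hn : ‖negLogDeriv s‖ ≤ C * K * (1 + T m ^ 2) ^ (1 / 4 : ℝ) / d := by
      rw [hs]
      refine (hb u (e * T m) (d / ell ((m + 3 : ℕ) : ℝ)) hu.1.le hu.2 (by rw [habs]; exact hT3)
        (div_pos hd0 (ell_pos _)) hδ fun ρ hρ => ?_).trans ?_
      · rw [habs]
        refine le_trans ?_ (hgap m ρ hρ)
        exact div_le_div_of_nonneg_right (hd ▸ min_le_left c 1) (ell_pos _).le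
      · have e1 : ell (e * T m) = ell (T m) := by
          rw [ell, ell, habs, abs_of_pos (by linarith : 0 < T m)]
        have e2 : ell ((m + 3 : ℕ) : ℝ) ≤ ell (T m) := ell_mono (by
          rw [Nat.abs_cast, abs_of_pos (by linarith : 0 < T m)]; exact hT1 m)
        have hl := four_le_ell (T m)
        have h9 : ell (T m) ^ 2 ≤ K * (1 + T m ^ 2) ^ (1 / 4 : ℝ) :=
          (pow_le_pow_right₀ (by linarith) (by norm_num)).trans (hK _)
        rw [e1, div_div_eq_mul_div, mul_assoc C K]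
        refine div_le_div_of_nonneg_right ?_ hd0.le
        rw [mul_assoc]
        refine mul_le_mul_of_nonneg_left (le_trans ?_ h9) hC
        rw [sq]
        exact mul_le_mul_of_nonneg_left e2 (by linarith)
    have hk : x ^ (s.re + 1) / (‖s‖ * ‖s + 1‖) ≤ 2 * max x 1 ^ (3 : ℕ) / (1 + T m ^ 2) := by
      have h1 : x ^ (s.re + 1) ≤ max x 1 ^ (3 : ℕ) := by
        refine (Real.rpow_le_rpow hx.le (le_max_left x 1) (by rw [hre]; linarith [hu.1])).trans ?_
        rw [← Real.rpow_natCast]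
        exact Real.rpow_le_rpow_of_exponent_le (le_max_right _ _)
          (by rw [hre]; push_cast; linarith [hu.2])
      have h2 : T m ≤ ‖s‖ := him ▸ abs_im_le_norm s
      have h3 : T m ≤ ‖s + 1‖ := by
        rw [← him]
        simpa using abs_im_le_norm (s + 1)
      have h4 : (1 + T m ^ 2) / 2 ≤ ‖s‖ * ‖s + 1‖ := by
        nlinarith [mul_le_mul h2 h3 (by linarith) (norm_nonneg s)]
      refine (div_le_div₀ (by positivity) h1 (by positivity) h4).trans (le_of_eq ?_)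
      field_simp
    refine (mul_le_mul hk hn (norm_nonneg _) (by positivity)).trans (le_of_eq ?_)
    have hdec : decay (T m) = (1 + T m ^ 2) ^ (1 / 4 : ℝ) / (1 + T m ^ 2) := by
      rw [decay, eq_div_iff (by positivity), ← Real.rpow_add_one (by positivity)]
      norm_num
    rw [hdec, hB]
    ring
  refine squeeze_zero_norm hpt ?_
  have h0 : Tendsto decay atTop (𝓝 0) :=
    tendsto_of_tendsto_of_tendsto_of_le_of_le' tendsto_const_nhds
      (tendsto_rpow_neg_atTop (show (0 : ℝ) < 3 / 2 by norm_num))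
      (Eventually.of_forall fun y => (decay_pos y).le)
      ((eventually_gt_atTop 0).mono fun y hy => decay_le hy)
  simpa using (h0.comp (tendsto_atTop_mono
    (fun m => le_trans (le_add_of_nonneg_right (by norm_num)) (hlow m))
    tendsto_natCast_atTop_atTop)).const_mul B

/-- The partial sums over `|γ| ≤ T` converge to the sum over all zeros. -/
theorem tendsto_zerosUpTo {x : ℝ} (hx : 0 < x) {T : ℕ → ℝ} (hT : Tendsto T atTop atTop) :
    Tendsto (fun m => ∑ ρ ∈ zerosUpTo (T m), zeroTerm x ρ) atTop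
      (𝓝 (∑' ρ, zeroTerm x ρ)) := by
  classical
  have hsupp : Function.support (zeroTerm x) ⊆ {ρ | xiFn ρ = 0} := fun ρ hρ => by
    by_contra h
    exact hρ (zeroTerm_eq_zero x h)
  have h : HasSum (zeroTerm x ∘ ((↑) : {ρ : ℂ | xiFn ρ = 0} → ℂ)) (∑' ρ, zeroTerm x ρ) :=
    (hasSum_subtype_iff_of_support_subset hsupp).2 (summable_norm_zeroTerm hx).of_norm.hasSum
  have hatTop : Tendsto (fun m => (zerosUpTo (T m)).subtype fun ρ => ρ ∈ {ρ : ℂ | xiFn ρ = 0})
      atTop atTop := by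
    refine tendsto_atTop.2 fun S => ?_
    filter_upwards [hT.eventually (eventually_ge_atTop (∑ ρ ∈ S, |(ρ : ℂ).im|))] with m hm
    intro ρ hρ
    rw [Finset.mem_subtype, mem_zerosUpTo]
    exact ⟨ρ.2, le_trans (Finset.single_le_sum (f := fun ρ : {ρ : ℂ | xiFn ρ = 0} => |(ρ : ℂ).im|)
      (fun i _ => abs_nonneg _) hρ) hm⟩
  refine (h.comp hatTop).congr fun m => ?_
  exact Finset.sum_subtype_of_mem (fun ρ => zeroTerm x ρ) fun ρ hρ => (mem_zerosUpTo.1 hρ).1

/-- The explicit formula: what remains is the integral on the line `re s = -1/2`. -/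
theorem explicit_eq {x : ℝ} (hx : 0 < x) :
    (psiOne x : ℂ) - ((x : ℂ) ^ 2 / 2 - ∑' ρ, zeroTerm x ρ -
      (x : ℂ) * (deriv riemannZeta 0 / riemannZeta 0)) =
        (∫ y : ℝ, integrand x (((-1 / 2 : ℝ) : ℂ) + y * I)) / (2 * π) := by
  obtain ⟨C, hC, hleft⟩ := exists_integral_left
  obtain ⟨T, hlow, hord, hside⟩ := exists_sides
  obtain ⟨hiL, -⟩ := hleft x hx
  obtain ⟨hiR, hR⟩ := integral_right hx
  have hTtop : Tendsto T atTop atTop := tendsto_atTop_mono
    (fun m => le_trans (le_add_of_nonneg_right (by norm_num)) (hlow m))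
    tendsto_natCast_atTop_atTop
  obtain ⟨L, hLdef⟩ : ∃ L, L = ∫ y : ℝ, integrand x (((-1 / 2 : ℝ) : ℂ) + y * I) := ⟨_, rfl⟩
  have hlim : Tendsto (fun m => boxInt (integrand x) (-1 / 2) (3 / 2) (T m)) atTop
      (𝓝 (0 - 0 + I * (2 * π * (psiOne x : ℂ)) - I * L)) := by
    refine ((Tendsto.sub ?_ ?_).add (Tendsto.const_mul I ?_)).sub (Tendsto.const_mul I ?_)
    · simpa using hside x hx (-1) (by norm_num)
    · simpa using hside x hx 1 (by norm_num)
    · rw [← hR]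
      exact intervalIntegral_tendsto_integral hiR (tendsto_neg_atTop_atBot.comp hTtop) hTtop
    · rw [hLdef]
      exact intervalIntegral_tendsto_integral hiL (tendsto_neg_atTop_atBot.comp hTtop) hTtop
  have hbox : ∀ m, boxInt (integrand x) (-1 / 2) (3 / 2) (T m) = 2 * π * I *
      ((x : ℂ) * negLogDeriv 0 + (x : ℂ) ^ 2 / 2 - ∑ ρ ∈ zerosUpTo (T m), zeroTerm x ρ) :=
    fun m => boxInt_integrand hx
      (by linarith [hlow m, (Nat.cast_nonneg m : (0 : ℝ) ≤ m)]) (hord m)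
  simp only [hbox] at hlim
  have heq := tendsto_nhds_unique hlim
    (((tendsto_zerosUpTo hx hTtop).const_sub _).const_mul _)
  rw [← hLdef]
  rw [negLogDeriv_zero] at heq
  have hπ : (π : ℂ) ≠ 0 := ofReal_ne_zero.2 Real.pi_ne_zero
  have h2 := mul_left_cancel₀ Complex.I_ne_zero
    (show I * (2 * π * (psiOne x : ℂ) - L) = I * (2 * π *
        ((x : ℂ) * -(deriv riemannZeta 0 / riemannZeta 0) + (x : ℂ) ^ 2 / 2 -
          ∑' ρ, zeroTerm x ρ)) by linear_combination heq)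
  rw [eq_div_iff (mul_ne_zero two_ne_zero hπ)]
  linear_combination h2

/-- **The explicit formula.** -/
theorem exists_explicit : ∃ C, 0 ≤ C ∧ ∀ x : ℝ, 0 < x →
    ‖(psiOne x : ℂ) - ((x : ℂ) ^ 2 / 2 - ∑' ρ, zeroTerm x ρ -
      (x : ℂ) * (deriv riemannZeta 0 / riemannZeta 0))‖ ≤ C * √x := by
  obtain ⟨C, hC, hleft⟩ := exists_integral_left
  refine ⟨C, hC, fun x hx => ?_⟩
  rw [explicit_eq hx, norm_div, norm_mul, RCLike.norm_ofNat, Complex.norm_real, Real.norm_eq_abs,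
    abs_of_pos Real.pi_pos]
  refine le_trans (div_le_self (norm_nonneg _) ?_) (hleft x hx).2
  linarith [Real.two_le_pi]

end FA.ExplicitFormula

end
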